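/-
GATE-B / leaf GB-RESORD-FREY (helper69), file 5: **transport of the frozen (non-strict)
`IsOrdinaryAt` between residual representations** — base change `ρ̄ ↦ ρ̄ ⊗ k`, `baseChangeAlong`,
and `ResidualGaloisRep.IsEquiv` — so that the binder

  `hordbar : (ofResidualGaloisRep ((W.map _).residualGaloisRepOf p hcard₁ hker)).IsOrdinaryAt p`

(`GB/Top/SplitMinOrd.CaseB38minNewFO`; for Frey: `GB/ResOrd/Frey.frey_isOrdinaryAt`) becomes the
`hres` binder of the frozen S33 for the datum of `GB/Glue/DatumOfRhobar.exists_datum`, whose last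
output is `H.ρ.residual.IsEquiv (ρbar.baseChangeAlong _)` with `ρbar = ρ̄ ⊗ k`:

  `hres_of_isEquiv_baseChangeAlong`.
-/
import Fermat.Agent.GB.B4.Datum.Push

set_option autoImplicit false

namespace Fermat.Agent.GB.ResOrd.Plug

open Fermat.Agent.GB.B4.Datum

/-- `G_ℚ`. -/
local notation "GQ" => AlgebraicClosure ℚ ≃ₐ[ℚ] AlgebraicClosure ℚ

/-- The frozen `IsOrdinaryAt` passes from `ρ` to `ρ ⊗ k`. -/
theorem isOrdinaryAt_baseChange {k₀ : Type} [Field k₀] (ρ : ResidualGaloisRep k₀)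
    (k : Type) [Field k] [Algebra k₀ k] {p : ℕ}
    (h : (GaloisRepAdic.ofResidualGaloisRep ρ).IsOrdinaryAt p) :
    (GaloisRepAdic.ofResidualGaloisRep (ρ.baseChange k)).IsOrdinaryAt p := by
  intro P hP
  exact Push.ordinary_core (B := k) (fun σ => ρ.ρ σ)
    (P.decompositionSubgroup ℚ : Set GQ) (P.inertiaSubgroupIn ℚ : Set GQ) (h P hP)

/-- The frozen `IsOrdinaryAt` passes from `ρ` to `ρ.baseChangeAlong φ`. -/
theorem isOrdinaryAt_baseChangeAlong {k₀ : Type} [Field k₀] (ρ : ResidualGaloisRep k₀)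
    {k : Type} [Field k] (φ : k₀ →+* k) {p : ℕ}
    (h : (GaloisRepAdic.ofResidualGaloisRep ρ).IsOrdinaryAt p) :
    (GaloisRepAdic.ofResidualGaloisRep (ρ.baseChangeAlong φ)).IsOrdinaryAt p := by
  let _ : Algebra k₀ k := φ.toAlgebra
  exact isOrdinaryAt_baseChange ρ k h

/-- The frozen `IsOrdinaryAt` is invariant under isomorphism of residual representations. -/
theorem isOrdinaryAt_of_isEquiv {k : Type} [Field k] {ρ₁ ρ₂ : ResidualGaloisRep k}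
    (he : ρ₁.IsEquiv ρ₂) {p : ℕ}
    (h : (GaloisRepAdic.ofResidualGaloisRep ρ₁).IsOrdinaryAt p) :
    (GaloisRepAdic.ofResidualGaloisRep ρ₂).IsOrdinaryAt p := by
  obtain ⟨e⟩ := he
  intro P hP
  have h' : ∃ L : Submodule k ρ₁.V,
      (∃ b : Module.Basis (Fin 2) k ρ₁.V, L = Submodule.span k {b 0}) ∧
      (∀ σ ∈ P.decompositionSubgroup ℚ, ∀ v ∈ L, ρ₁.ρ σ v ∈ L) ∧
      (∀ σ ∈ P.inertiaSubgroupIn ℚ, ∀ v : ρ₁.V, ρ₁.ρ σ v - v ∈ L) := h P hP
  obtain ⟨L, ⟨b, hb⟩, hD', hI'⟩ := h'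
  change ∃ L : Submodule k ρ₂.V, (∃ b : Module.Basis (Fin 2) k ρ₂.V, L = Submodule.span k {b 0}) ∧
    (∀ σ ∈ P.decompositionSubgroup ℚ, ∀ v ∈ L, ρ₂.ρ σ v ∈ L) ∧
    (∀ σ ∈ P.inertiaSubgroupIn ℚ, ∀ v : ρ₂.V, ρ₂.ρ σ v - v ∈ L)
  refine ⟨L.map (e.toLinearEquiv : ρ₁.V →ₗ[k] ρ₂.V), ⟨b.map e.toLinearEquiv, ?_⟩, ?_, ?_⟩
  · rw [hb, Submodule.map_span, Set.image_singleton, Module.Basis.map_apply]
    rfl
  · rintro σ hσ _ ⟨w, hw, rfl⟩
    refine ⟨ρ₁.ρ σ w, hD' σ hσ w hw, ?_⟩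
    exact e.map_apply σ w
  · intro σ hσ v
    obtain ⟨w, rfl⟩ := e.toLinearEquiv.surjective v
    refine ⟨ρ₁.ρ σ w - w, hI' σ hσ w, ?_⟩
    rw [map_sub]
    congr 1
    exact e.map_apply σ w

/-- **The `hres` binder of the frozen S33** for any residual representation `ρ'` (e.g.
`H.ρ.residual`) isomorphic to a `baseChangeAlong` of `ρ̄ ⊗ k`, from ordinarity of `ρ̄`. -/
theorem hres_of_isEquiv_baseChangeAlong {k₀ : Type} [Field k₀] (ρ : ResidualGaloisRep k₀)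
    (k : Type) [Field k] [Algebra k₀ k] {k' : Type} [Field k'] (φ : k →+* k')
    {ρ' : ResidualGaloisRep k'} (he : ρ'.IsEquiv ((ρ.baseChange k).baseChangeAlong φ)) {p : ℕ}
    (h : (GaloisRepAdic.ofResidualGaloisRep ρ).IsOrdinaryAt p) :
    (GaloisRepAdic.ofResidualGaloisRep ρ').IsOrdinaryAt p := by
  obtain ⟨e⟩ := he
  exact isOrdinaryAt_of_isEquiv ⟨e.symm⟩
    (isOrdinaryAt_baseChangeAlong (ρ.baseChange k) φ (isOrdinaryAt_baseChange ρ k h))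

end Fermat.Agent.GB.ResOrd.Plug
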