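/-
GATE-B / leaf GB-RESORD-FREY (helper69), file 3: **the abstract shape lemma**.

`V` a plane over a field `k`, `L ≠ ⊤` a subspace, `I` a set of endomorphisms stabilising `L` with
`(T - 1)² V ⊆ L` for every `T ∈ I`, and some `T₀ ∈ I` with `det T₀ ≠ 1`.  Then `L` is a line
`k ∙ b 0` for a basis `b` of `V`, and `(T - 1) V ⊆ L` for every `T ∈ I`: the frozen shape of
`GaloisRepAdic.IsOrdinaryAt` (with `I` = the image of inertia, `L` = the kernel of reduction).

Mathlib only.
-/
import Mathlib

set_option autoImplicit false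

namespace Fermat.Agent.GB.ResOrd.AbsOrd

open Module

section Mat

variable {k : Type*} [Field k]

/-- A `2 × 2` matrix `M` with `(M - 1)² = 0` has determinant `1`. -/
theorem det_eq_one_of_sq_zero (M : Matrix (Fin 2) (Fin 2) k) (h : (M - 1) * (M - 1) = 0) :
    M.det = 1 := by
  have h00 := congrFun (congrFun h 0) 0
  have h01 := congrFun (congrFun h 0) 1
  have h10 := congrFun (congrFun h 1) 0
  have h11 := congrFun (congrFun h 1) 1
  simp only [Matrix.mul_apply, Fin.sum_univ_two, Matrix.sub_apply, Matrix.one_apply_eq,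
    Matrix.zero_apply, Fin.isValue, ne_eq, zero_ne_one, one_ne_zero, not_false_eq_true,
    Matrix.one_apply_ne, sub_zero] at h00 h01 h10 h11
  rw [Matrix.det_fin_two]
  by_cases hs : M 0 0 + M 1 1 - 2 = 0
  · linear_combination (-1) * h00 + M 0 0 * hs
  · exfalso
    have hb : M 0 1 = 0 := by
      have : M 0 1 * (M 0 0 + M 1 1 - 2) = 0 := by linear_combination h01
      exact (mul_eq_zero.1 this).resolve_right hs
    have hc : M 1 0 = 0 := by
      have : M 1 0 * (M 0 0 + M 1 1 - 2) = 0 := by linear_combination h10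
      exact (mul_eq_zero.1 this).resolve_right hs
    have ha : M 0 0 - 1 = 0 := by
      have : (M 0 0 - 1) * (M 0 0 - 1) = 0 := by rw [hb] at h00; linear_combination h00
      exact mul_self_eq_zero.1 this
    have hd : M 1 1 - 1 = 0 := by
      have : (M 1 1 - 1) * (M 1 1 - 1) = 0 := by rw [hb] at h11; linear_combination h11
      exact mul_self_eq_zero.1 this
    exact hs (by linear_combination ha + hd)

end Mat

variable {k : Type*} [Field k] {V : Type*} [AddCommGroup V] [Module k V]

/-- An endomorphism `T` of a plane with `(T - 1)² = 0` has determinant `1`. -/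
theorem det_eq_one_of_sq_zero_end (hfin : finrank k V = 2) (T : Module.End k V)
    (h : ∀ v, T (T v - v) - (T v - v) = 0) : LinearMap.det T = 1 := by
  classical
  have : FiniteDimensional k V := Module.finite_of_finrank_eq_succ hfin
  let b : Basis (Fin 2) k V := finBasisOfFinrankEq k V hfin
  have hT : (T - 1) * (T - 1) = 0 := by
    refine LinearMap.ext fun v => ?_
    simpa [Module.End.mul_apply, LinearMap.sub_apply] using h v
  have hM : (LinearMap.toMatrix b b T - 1) * (LinearMap.toMatrix b b T - 1) = 0 := by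
    have h1 : LinearMap.toMatrix b b (T - 1) = LinearMap.toMatrix b b T - 1 := by
      rw [map_sub, LinearMap.toMatrix_one]
    rw [← h1, ← LinearMap.toMatrix_mul, hT, map_zero]
  rw [← LinearMap.det_toMatrix b]
  exact det_eq_one_of_sq_zero _ hM

/-- In a plane over a field every nonzero vector is the first vector of a basis. -/
theorem exists_basis_zero_eq (hfin : finrank k V = 2) {w : V} (hw : w ≠ 0) :
    ∃ b : Basis (Fin 2) k V, b 0 = w := by
  classical
  have : FiniteDimensional k V := Module.finite_of_finrank_eq_succ hfin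
  have hne : (k ∙ w) ≠ ⊤ := by
    intro htop
    have h1 : finrank k (k ∙ w) = 1 := finrank_span_singleton hw
    rw [htop, finrank_top, hfin] at h1
    omega
  obtain ⟨v, hv⟩ : ∃ v : V, v ∉ (k ∙ w) := by
    by_contra hcon
    exact hne (eq_top_iff.2 fun x _ => by
      by_contra hx
      exact hcon ⟨x, hx⟩)
  have hli : LinearIndependent k ![w, v] := by
    rw [linearIndependent_fin2]
    refine ⟨?_, fun a ha => ?_⟩
    · show v ≠ 0
      rintro rfl
      exact hv (Submodule.zero_mem _)
    · have ha' : a • v = w := ha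
      have ha0 : a ≠ 0 := by
        rintro rfl
        rw [zero_smul] at ha'
        exact hw ha'.symm
      apply hv
      rw [Submodule.mem_span_singleton]
      refine ⟨a⁻¹, ?_⟩
      rw [← ha', smul_smul, inv_mul_cancel₀ ha0, one_smul]
  have hcard : Fintype.card (Fin 2) = finrank k V := by rw [hfin]; rfl
  refine ⟨basisOfLinearIndependentOfCardEqFinrank hli hcard, ?_⟩
  rw [coe_basisOfLinearIndependentOfCardEqFinrank]
  rfl

/-- **The shape lemma.** -/
theorem line_of_sq (hfin : finrank k V = 2) (L : Submodule k V) (hL : L ≠ ⊤)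
    (I : Set (Module.End k V))
    (hstab : ∀ T ∈ I, ∀ v ∈ L, T v ∈ L)
    (hsq : ∀ T ∈ I, ∀ v, T (T v - v) - (T v - v) ∈ L)
    (hdet : ∃ T ∈ I, LinearMap.det T ≠ 1) :
    (∃ b : Basis (Fin 2) k V, L = k ∙ b 0) ∧ ∀ T ∈ I, ∀ v, T v - v ∈ L := by
  classical
  have : FiniteDimensional k V := Module.finite_of_finrank_eq_succ hfin
  -- `L ≠ ⊥`
  have hbot : L ≠ ⊥ := by
    rintro rfl
    obtain ⟨T₀, hT₀, hd⟩ := hdet
    exact hd (det_eq_one_of_sq_zero_end hfin T₀ fun v => (Submodule.mem_bot k).1 (hsq T₀ hT₀ v))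
  -- `L` is a line
  have hlt : finrank k L < 2 := by
    rw [← hfin]
    exact Submodule.finrank_lt hL
  have hpos : 0 < finrank k L := by
    rw [Module.finrank_pos_iff_exists_ne_zero]
    obtain ⟨x, hx, hx0⟩ := Submodule.exists_mem_ne_zero_of_ne_bot hbot
    exact ⟨⟨x, hx⟩, fun h => hx0 (congrArg Subtype.val h)⟩
  have hone : finrank k L = 1 := by omega
  obtain ⟨w, hwL, hw0⟩ := Submodule.exists_mem_ne_zero_of_ne_bot hbot
  have hLw : L = k ∙ w := by
    symm
    apply Submodule.eq_of_le_of_finrank_eq
    · rw [Submodule.span_singleton_le_iff_mem]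
      exact hwL
    · rw [finrank_span_singleton hw0, hone]
  refine ⟨?_, ?_⟩
  · obtain ⟨b, hb⟩ := exists_basis_zero_eq hfin hw0
    exact ⟨b, by rw [hb, hLw]⟩
  · intro T hT v
    by_contra hv
    set u : V := T v - v with hu
    -- `L ⊔ k u = ⊤`
    have hsup : L ⊔ (k ∙ u) = ⊤ := by
      apply Submodule.eq_top_of_finrank_eq
      rw [hfin]
      have h1 : L < L ⊔ (k ∙ u) := by
        refine lt_of_le_of_ne le_sup_left fun h => hv ?_
        rw [h]
        exact Submodule.mem_sup_right (Submodule.mem_span_singleton_self u)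
      have h2 := Submodule.finrank_lt_finrank_of_lt h1
      have h3 : finrank k ↥(L ⊔ (k ∙ u)) ≤ finrank k V := Submodule.finrank_le _
      omega
    have hvmem : v ∈ L ⊔ (k ∙ u) := by rw [hsup]; trivial
    obtain ⟨ℓ, hℓ, z, hz, hsum⟩ := Submodule.mem_sup.1 hvmem
    obtain ⟨a, rfl⟩ := Submodule.mem_span_singleton.1 hz
    apply hv
    have e : T v - v = (T ℓ - ℓ) + a • (T u - u) := by
      rw [← hsum, map_add, map_smul]
      simp only [smul_sub]
      abel
    rw [hu] at e ⊢
    rw [e]
    refine Submodule.add_mem _ (Submodule.sub_mem _ (hstab T hT ℓ hℓ) hℓ)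
      (Submodule.smul_mem _ _ ?_)
    exact hsq T hT v

end Fermat.Agent.GB.ResOrd.AbsOrd
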