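/-
GATE-B / leaf GB-RESORD-FREY (helper69), file 1: **the odd division polynomials of
`y² + a₁xy = x³ + a₂x² + a₄x` vanish at `x = 0` modulo `a₄`**.

For a Weierstrass curve with `a₃ = a₆ = 0` (so that `(0, 0)` is a point of order two), the value
`preΨ'_n(0)` is divisible by `a₄` for every odd `n ≥ 3`.  (Geometrically: when `a₄ = 0` the curve
is nodal at `(0,0)` and all but `(n-1)/2` roots of `preΨ'_n` collapse to the node.)  Proof: strong
induction with Mathlib's recurrence `preΨ'_odd`; `Ψ₂Sq(0) = b₆ = 0` kills one of the two terms,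
and the surviving term contains an odd-indexed factor of smaller index; `preΨ'_3(0) = b₈ = -a₄²`.

Mathlib only.
-/
import Mathlib

set_option autoImplicit false

namespace Fermat.Agent.GB.ResOrd.EdsZero

open Polynomial WeierstrassCurve

variable {R : Type*} [CommRing R] (W : WeierstrassCurve R)

theorem eval_zero_Ψ₂Sq : (W.Ψ₂Sq).eval 0 = W.b₆ := by
  simp [WeierstrassCurve.Ψ₂Sq]

theorem eval_zero_Ψ₃ : (W.Ψ₃).eval 0 = W.b₈ := by
  simp [WeierstrassCurve.Ψ₃]

/-- **`a₄ ∣ preΨ'_n(0)`** for odd `n ≥ 3` on a curve with `a₃ = a₆ = 0`. -/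
theorem a₄_dvd_eval_zero_preΨ' (h3 : W.a₃ = 0) (h6 : W.a₆ = 0) :
    ∀ n : ℕ, Odd n → 3 ≤ n → W.a₄ ∣ (W.preΨ' n).eval 0 := by
  have hb6 : W.b₆ = 0 := by simp [WeierstrassCurve.b₆, h3, h6]
  have hb8 : W.b₈ = - W.a₄ ^ 2 := by simp [WeierstrassCurve.b₈, h3, h6]
  intro n
  induction n using Nat.strong_induction_on with
  | _ n ih =>
    intro hodd h3n
    obtain ⟨k, rfl⟩ := hodd
    rcases k with _ | _ | m
    · omega
    · rw [show 2 * (0 + 1) + 1 = 3 by norm_num, preΨ'_three, eval_zero_Ψ₃, hb8]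
      exact ⟨-W.a₄, by ring⟩
    · rw [show 2 * (m + 1 + 1) + 1 = 2 * (m + 2) + 1 by ring, preΨ'_odd]
      by_cases hm : Even m
      · have h1 : W.a₄ ∣ (W.preΨ' (m + 3)).eval 0 :=
          ih (m + 3) (by omega) (by
            obtain ⟨j, hj⟩ := hm
            exact ⟨j + 1, by omega⟩) (by omega)
        simp only [hm, if_true, eval_sub, eval_mul, eval_pow, eval_zero_Ψ₂Sq, hb6, mul_one]
        rw [show (0 : R) ^ 2 = 0 by norm_num, mul_zero, zero_sub]
        exact (Dvd.dvd.mul_left (dvd_pow h1 (by norm_num)) _).neg_right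
      · have h1 : W.a₄ ∣ (W.preΨ' (m + 2)).eval 0 :=
          ih (m + 2) (by omega) (by
            obtain ⟨j, hj⟩ := Nat.not_even_iff_odd.1 hm
            exact ⟨j + 1, by omega⟩) (by
            obtain ⟨j, hj⟩ := Nat.not_even_iff_odd.1 hm
            omega)
        simp only [hm, if_false, eval_sub, eval_mul, eval_pow, eval_zero_Ψ₂Sq, hb6, mul_one]
        rw [show (0 : R) ^ 2 = 0 by norm_num, mul_zero, sub_zero]
        exact Dvd.dvd.mul_left (dvd_pow h1 (by norm_num)) _

end Fermat.Agent.GB.ResOrd.EdsZero
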