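/-
GATE-B / leaf GB-RESORD-FREY (helper69), file 2: **not all of `E[p]` lies in the kernel of
reduction when `p ∣ preΨ'_p(0)`**.

Same valuation count as `S13/AtPSSModel.no_stable_line`: if `#E[p] = p²` then
`preΨ'_p(0) = ± p ∏ x(T)`, the product over the `(p²-1)/2` abscissae of the nonzero `p`-torsion
points.  If all of them are non-integral at a valuation subring `A` over `p` then
`v(preΨ'_p(0)) < v(p) = 1`; so `p ∤ preΨ'_p(0)` when `preΨ'_p(0) ∈ ℤ`.
-/
import Fermat.Agent.S13.AtPSSModel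

set_option autoImplicit false

open WeierstrassCurve WeierstrassCurve.Affine WeierstrassCurve.Affine.Point Polynomial

namespace Fermat.Agent.GB.ResOrd.NotInE1

open Fermat.Agent.S05 Fermat.Agent.S05.QVS Fermat.Agent.S51_helper12 Fermat.Agent.S13.Counting
open Fermat.Agent.S13.AtPSSModel

variable (E : WeierstrassCurve ℚ) {p : ℕ}

/-- **Some nonzero `p`-torsion point has integral abscissa** (contrapositive form). -/
theorem false_of_all_notMem (hp : p.Prime) (hodd : Odd p)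
    (hΔ : (E⁄Qbar).Δ ≠ 0)
    (hDP : ∀ (x y : Qbar) (h : (E⁄Qbar).Nonsingular x y),
      p • (Point.some x y h) = 0 ↔ ((E⁄Qbar).preΨ' p).eval x = 0)
    (hcard : Nat.card (Tors (E⁄Qbar) p) = p ^ 2)
    (c0 : ℤ) (hc0 : ((E⁄Qbar).preΨ' p).eval 0 = (c0 : Qbar)) (hpc0 : (p : ℤ) ∣ c0)
    (A : ValuationSubring Qbar) (hA : A.LiesOverPrime p)
    (hall : ∀ (x y : Qbar) (h : (E⁄Qbar).Nonsingular x y), p • (Point.some x y h) = 0 → x ∉ A) :
    False := by
  classical
  have R : RankOneData A ((p : ℕ) : Qbar) := rankOneData_of_liesOver A hp hA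
  have hpK : ((p : ℕ) : Qbar) ≠ 0 := Nat.cast_ne_zero.2 hp.ne_zero
  set XS : Finset Qbar := xSet (E⁄Qbar) p with hXS
  have hXS_neg : ∀ x ∈ XS, x ≠ 0 ∧ R.qval.v x < 0 := by
    intro x hx
    obtain ⟨y, h, hT⟩ := (mem_xSet_iff_exists (E⁄Qbar) hodd hpK hDP hΔ x).1 hx
    exact R.notMem_iff.1 (hall x y h hT)
  have hXS_card : XS.card = (p ^ 2 - 1) / 2 := card_xSet_eq (E⁄Qbar) hodd hpK hDP hcard
  have hp3 : 3 ≤ p := by
    have := hp.two_le
    rcases hodd with ⟨k, rfl⟩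
    omega
  have hXS_ne : XS.Nonempty := by
    rw [← Finset.card_pos, hXS_card]
    have h2 := two_mul_half_add_one hodd (p := p)
    have h3 : 3 * p ≤ p ^ 2 := by rw [pow_two]; exact Nat.mul_le_mul_right p hp3
    omega
  have hprod0 : ∏ x ∈ XS, x ≠ 0 := Finset.prod_ne_zero_iff.2 fun x hx => (hXS_neg x hx).1
  have hvprod : R.qval.v (∏ x ∈ XS, x) < 0 := by
    rw [qval_prod R.qval XS (fun x => x) fun x hx => (hXS_neg x hx).1]
    exact Finset.sum_neg (fun x hx => (hXS_neg x hx).2) hXS_ne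
  have hev := eval_zero_preΨ' (E⁄Qbar) hodd hpK hDP hcard
  rw [hc0, ← hXS] at hev
  have hsign0 : ((-1 : Qbar)) ^ ((p ^ 2 - 1) / 2) ≠ 0 := pow_ne_zero _ (by norm_num)
  have hvsign : R.qval.v (((-1 : Qbar)) ^ ((p ^ 2 - 1) / 2)) = 0 := by
    rw [R.qval.map_pow (by norm_num), R.qval.map_neg_one, mul_zero]
  have hrhs0 : (p : Qbar) * (-1) ^ ((p ^ 2 - 1) / 2) * (∏ x ∈ XS, x) ≠ 0 :=
    mul_ne_zero (mul_ne_zero hpK hsign0) hprod0
  have hc00 : c0 ≠ 0 := by
    rintro rfl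
    rw [Int.cast_zero] at hev
    exact hrhs0 hev.symm
  have hvc0 : (1 : ℚ) ≤ R.qval.v (c0 : Qbar) := by
    rw [R.val_intCast hp hc00]
    have h1 : 1 ≤ padicValInt p c0 := by
      have : Fact p.Prime := ⟨hp⟩
      have h2 := (padicValInt_dvd_iff (p := p) 1 c0).1 (by rwa [pow_one])
      exact h2.resolve_left hc00
    exact_mod_cast h1
  rw [hev, R.qval.map_mul (mul_ne_zero hpK hsign0) hprod0,
    R.qval.map_mul hpK hsign0, hvsign, R.qval_c] at hvc0
  linarith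

end Fermat.Agent.GB.ResOrd.NotInE1
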