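/-
GATE-B / leaf GB-RESORD-FREY (helper69), file 4: **residual ordinarity at `p` of `E[p]` for a curve
with multiplicative reduction at `p`** (model `y² = x³ + αx² + π^p x`, `p ∣ π`, `p ∤ α`), and the
Frey instance (`p ∣ abc`).

This is the E-side source of the `hres` binder of the frozen S33 (and of the `IsOrdinaryAt` part
of the residual SO condition) in the `p ∣ M` branch of GATE-B (`CaseBTNew`): for the Frey curve
`p ∣ N ⟹ p ∣ abc` (`IsConductorLevel.support`), and then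

  `(ofResidualGaloisRep (E.residualGaloisRepOf p hcard hker)).IsOrdinaryAt p`.

Proof (elementary, no Tate curve): for `A ∣ p` let `L := E[p] ∩ E₁(A)` (kernel of reduction).
* `L` is stable under the decomposition group of `A`;
* `(σ - 1)² E[p] ⊆ L` for `σ ∈ I_A`  (`S13/AtPGeoModel.sq_sub_one_mem_E1`, nodal branch);
* `L ≠ E[p]`: `a₄ = π^p` divides `preΨ'_p(0)` (`EdsZero`), so `p ∣ preΨ'_p(0)` and the valuation
  count of `NotInE1` forbids that all abscissae are non-integral;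
* `det ρ̄(σ₀) ≠ 1` for some `σ₀ ∈ I_A` (cyclotomic determinant, binder `hdet`; `GS/DetCyc`);
* `AbsOrd.line_of_sq` : then `L` is a line `𝔽_p ∙ b 0` and `I_A` acts trivially on `E[p]/L`.
-/
import Fermat.Agent.S13.AtP
import Fermat.Agent.S13.DivFinal
import Fermat.Agent.S13.DP.Main
import Fermat.Agent.GS.DetCyc
import Fermat.Agent.GB.ResOrd.EdsZero
import Fermat.Agent.GB.ResOrd.NotInE1
import Fermat.Agent.GB.ResOrd.AbsOrd

set_option autoImplicit false

open WeierstrassCurve WeierstrassCurve.Affine WeierstrassCurve.Affine.Point Polynomial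

namespace Fermat.Agent.GB.ResOrd.Frey

open Fermat.Agent.S05 Fermat.Agent.S05.Endgame Fermat.Agent.S05.EndgameFinal
  Fermat.Agent.S13.Counting Fermat.Agent.S13.AtP

section Det

/-- From the cyclotomic determinant of ANY base change `ρ ⊗ k` of a residual representation: an
inertia element at `A ∣ p` (`p` odd) whose determinant on `ρ` is not `1`. -/
theorem exists_inertia_det_ne_one {k₀ : Type} [Field k₀] (ρ : ResidualGaloisRep k₀)
    (k : Type) [Field k] [Algebra k₀ k] {p : ℕ} (hp : p.Prime) (hp2 : p ≠ 2)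
    (hdet : (GaloisRepAdic.ofResidualGaloisRep (ρ.baseChange k)).DetIsCyclotomic p)
    (A : ValuationSubring (AlgebraicClosure ℚ)) (hA : A.LiesOverPrime p) :
    ∃ σ₀ ∈ A.inertiaSubgroupIn ℚ, LinearMap.det (ρ.ρ σ₀) ≠ 1 := by
  obtain ⟨σ₀, hσ₀, hu, -, -⟩ := Fermat.Agent.GS.DetCyc.exists_inertia_isUnit_det_sub_one hp hp2
    _ hdet A hA
  refine ⟨σ₀, hσ₀, fun h1 => ?_⟩
  have h2 : LinearMap.det ((GaloisRepAdic.ofResidualGaloisRep (ρ.baseChange k)).ρ σ₀) =
      algebraMap k₀ k (LinearMap.det (ρ.ρ σ₀)) := by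
    show LinearMap.det ((ρ.ρ σ₀).baseChange k) = _
    rw [LinearMap.det_baseChange]
  rw [h2, h1, map_one, sub_self] at hu
  exact not_isUnit_zero hu

/-- The same from the cyclotomic determinant of `ρ` itself. -/
theorem exists_inertia_det_ne_one_self {k₀ : Type} [Field k₀] (ρ : ResidualGaloisRep k₀)
    {p : ℕ} (hp : p.Prime) (hp2 : p ≠ 2)
    (hdet : (GaloisRepAdic.ofResidualGaloisRep ρ).DetIsCyclotomic p)
    (A : ValuationSubring (AlgebraicClosure ℚ)) (hA : A.LiesOverPrime p) :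
    ∃ σ₀ ∈ A.inertiaSubgroupIn ℚ, LinearMap.det (ρ.ρ σ₀) ≠ 1 := by
  obtain ⟨σ₀, hσ₀, hu, -, -⟩ := Fermat.Agent.GS.DetCyc.exists_inertia_isUnit_det_sub_one hp hp2
    _ hdet A hA
  refine ⟨σ₀, hσ₀, fun h1 => ?_⟩
  have h2 : LinearMap.det ((GaloisRepAdic.ofResidualGaloisRep ρ).ρ σ₀) = 1 := h1
  rw [h2, sub_self] at hu
  exact not_isUnit_zero hu

end Det

section Model

variable {α π : ℤ} {p : ℕ}

/-- `p ∣ preΨ'_p(0)` on the integral model when `p ∣ π`. -/
theorem exists_c0_dvd (hp : p.Prime) (hodd : Odd p) (hpπ : (p : ℤ) ∣ π) :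
    ∃ c0 : ℤ, ((MW α π p).preΨ' p).eval 0 = (c0 : AlgebraicClosure ℚ) ∧ (p : ℤ) ∣ c0 := by
  have e : MW α π p = (modelM ℤ α (π ^ p)).map (algebraMap ℤ (AlgebraicClosure ℚ)) := by
    unfold MW
    rw [modelM_map]
    change (modelM ℚ (α : ℚ) ((π : ℚ) ^ p)).map (algebraMap ℚ (AlgebraicClosure ℚ)) = _
    rw [modelM_map]
    simp
  refine ⟨((modelM ℤ α (π ^ p)).preΨ' p).eval 0, ?_, ?_⟩
  · rw [e, WeierstrassCurve.map_preΨ', Polynomial.eval_zero_map]
    simp
  · have hp3 : 3 ≤ p := by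
      have := hp.two_le
      rcases hodd with ⟨k, rfl⟩
      omega
    have h1 := Fermat.Agent.GB.ResOrd.EdsZero.a₄_dvd_eval_zero_preΨ' (modelM ℤ α (π ^ p))
      rfl rfl p hodd hp3
    have h2 : (p : ℤ) ∣ (modelM ℤ α (π ^ p)).a₄ := by
      show (p : ℤ) ∣ π ^ p
      exact dvd_pow hpπ hp.ne_zero
    exact h2.trans h1

/-- **Residual ordinarity at `p` on a curve `E = C • M(α, π^p)` with `p ∣ π`, `p ∤ α`**, from an
inertia element of determinant `≠ 1` over every place above `p`. -/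
theorem isOrdinaryAt_model_of_det [hpF : Fact p.Prime] (hp2 : p ≠ 2) (hπ0 : π ≠ 0)
    (hmult : (p : ℤ) ∣ π ∧ ¬ (p : ℤ) ∣ α)
    (hDP : HDP (MW α π p) p)
    (E : WeierstrassCurve ℚ) (C : VariableChange ℚ)
    (hE : E = C • modelM ℚ (α : ℚ) ((π : ℚ) ^ p))
    (hcard : Nat.card (TorsQ E p) = p ^ 2)
    (hker : GaloisFactorsThroughFiniteLevel
      (galoisRepModuleEnd (K := AlgebraicClosure ℚ) ℚ E p))
    (hdetI : ∀ A : ValuationSubring (AlgebraicClosure ℚ), A.LiesOverPrime p →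
      ∃ σ₀ ∈ A.inertiaSubgroupIn ℚ,
        LinearMap.det (galoisRepModuleEnd (K := AlgebraicClosure ℚ) ℚ E p σ₀) ≠ 1) :
    (GaloisRepAdic.ofResidualGaloisRep (E.residualGaloisRepOf p hcard hker)).IsOrdinaryAt p := by
  have hp : p.Prime := hpF.out
  have hcase : (¬ (p : ℤ) ∣ π ∧ ¬ (p : ℤ) ∣ α ^ 2 - 4 * π ^ p) ∨
      ((p : ℤ) ∣ π ∧ ¬ (p : ℤ) ∣ α) := Or.inr hmult
  intro A hA
  have hfinrank : Module.finrank (ZMod p) (TorsQ E p) = 2 :=
    (E.residualGaloisRepOf p hcard hker).finrank_eq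
  obtain ⟨σ₀, hσ₀, hdet₀⟩ := hdetI A hA
  clear hdetI
  show ∃ L : Submodule (ZMod p) (TorsQ E p),
    (∃ b : Module.Basis (Fin 2) (ZMod p) (TorsQ E p), L = Submodule.span (ZMod p) {b 0}) ∧
    (∀ σ ∈ A.decompositionSubgroup ℚ, ∀ v ∈ L,
      galoisRepModuleEnd (K := AlgebraicClosure ℚ) ℚ E p σ v ∈ L) ∧
    (∀ σ ∈ A.inertiaSubgroupIn ℚ, ∀ v : TorsQ E p,
      galoisRepModuleEnd (K := AlgebraicClosure ℚ) ℚ E p σ v - v ∈ L)
  clear hker
  subst hE
  have hodd : Odd p := hp.odd_of_ne_two hp2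
  have hfin : Finite (TorsQ (C • modelM ℚ (α : ℚ) ((π : ℚ) ^ p)) p) :=
    Nat.finite_of_card_ne_zero (by rw [hcard]; exact pow_ne_zero 2 hp.ne_zero)
  -- the transport to the model
  let e := vcBaseChangeEquiv (K := AlgebraicClosure ℚ) (modelM ℚ (α : ℚ) ((π : ℚ) ^ p)) C
  let φ : TorsQ (C • modelM ℚ (α : ℚ) ((π : ℚ) ^ p)) p →+ (MW α π p).Point :=
    e.toAddMonoidHom.comp (Submodule.subtype _).toAddMonoidHom
  have hφ : ∀ x, φ x = e x.1 := fun x => rfl
  have hφ_smul : ∀ (σ : AlgebraicClosure ℚ ≃ₐ[ℚ] AlgebraicClosure ℚ) x, φ (σ • x) = σ • φ x :=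
    fun σ x => vcBaseChangeEquiv_smul (modelM ℚ (α : ℚ) ((π : ℚ) ^ p)) C σ x.1
  have hφ_tors : ∀ x, p • φ x = 0 := by
    intro x
    rw [hφ, ← map_nsmul, nsmul_eq_zero_of_mem x, _root_.map_zero]
  -- the kernel of reduction
  have hB := MW_integralB α π p A
  let E1sub : AddSubgroup (MW α π p).Point := KR.kerRedSubgroup hB
  have hE1mem : ∀ T : (MW α π p).Point, T ∈ E1sub ↔ InE1 A.valuation T := fun T =>
    (inE1_iff_kerRed A T).symm
  let V₁ : AddSubgroup (TorsQ (C • modelM ℚ (α : ℚ) ((π : ℚ) ^ p)) p) := E1sub.comap φ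
  have hV₁mem : ∀ x, x ∈ V₁ ↔ InE1 A.valuation (φ x) := fun x => hE1mem (φ x)
  let L : Submodule (ZMod p) (TorsQ (C • modelM ℚ (α : ℚ) ((π : ℚ) ^ p)) p) :=
    AddSubgroup.toZModSubmodule p V₁
  have hLmem : ∀ x, x ∈ L ↔ InE1 A.valuation (φ x) := fun x => hV₁mem x
  -- stability under the decomposition group
  have hD : ∀ σ ∈ A.decompositionSubgroup ℚ, ∀ x ∈ L,
      galoisRepModuleEnd (K := AlgebraicClosure ℚ) ℚ
        (C • modelM ℚ (α : ℚ) ((π : ℚ) ^ p)) p σ x ∈ L := by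
    intro σ hσ x hx
    rw [galoisRepModuleEnd_apply]
    rw [hLmem] at hx ⊢
    rw [hφ_smul]
    rcases hx with h0 | ⟨x₁, y₁, h₁, e₁, hx₁⟩
    · left
      rw [h0]
      rfl
    · right
      rw [e₁]
      refine ⟨σ x₁, σ y₁, _, rfl, ?_⟩
      rw [one_lt_val_iff] at hx₁ ⊢
      exact fun h => hx₁ (mem_of_apply_mem_of_mem_decompositionSubgroup hσ h)
  -- exclusion of `L = ⊤`
  have hD' : α ^ 2 - 4 * π ^ p ≠ 0 := disc_ne_zero_of_case hp hcase
  have hLtop : L ≠ ⊤ := by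
    intro htopV
    have hcardT : Nat.card (Tors (MW α π p) p) = p ^ 2 := by
      rw [← hcard]
      symm
      refine Nat.card_congr
        { toFun := fun x => ⟨φ x, hφ_tors x⟩
          invFun := fun T => ⟨e.symm T.1, mem_torsQ_of_nsmul_eq_zero (by
            rw [← map_nsmul, T.2, _root_.map_zero])⟩
          left_inv := fun x => Subtype.ext (e.symm_apply_apply x.1)
          right_inv := fun T => Subtype.ext (e.apply_symm_apply T.1) }
    have hall : ∀ (x y : AlgebraicClosure ℚ) (h : (MW α π p).Nonsingular x y),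
        p • (Point.some x y h) = 0 → x ∉ A := by
      intro x y h hT
      have hz : e.symm (Point.some x y h) ∈
          Submodule.torsionBy ℤ ((C • modelM ℚ (α : ℚ) ((π : ℚ) ^ p))⁄(AlgebraicClosure ℚ)).Point
            p :=
        mem_torsQ_of_nsmul_eq_zero (by rw [← map_nsmul, hT, _root_.map_zero])
      have hmem : (⟨_, hz⟩ : TorsQ (C • modelM ℚ (α : ℚ) ((π : ℚ) ^ p)) p) ∈ L := by
        rw [htopV]; trivial
      rw [hLmem, hφ] at hmem
      change InE1 A.valuation (e (e.symm (Point.some x y h))) at hmem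
      rw [e.apply_symm_apply] at hmem
      rcases hmem with h0 | ⟨x₁, y₁, h₁, e₁, hx₁⟩
      · exact absurd h0 (Point.some_ne_zero h)
      · have := e₁
        simp only [Point.some.injEq] at this
        rw [this.1]
        exact (one_lt_val_iff A).1 hx₁
    obtain ⟨c0, hc0, hpc0⟩ := exists_c0_dvd (α := α) (π := π) hp hodd hmult.1
    exact Fermat.Agent.GB.ResOrd.NotInE1.false_of_all_notMem (modelM ℚ (α : ℚ) ((π : ℚ) ^ p)) hp hodd
      (MW_Δ_ne_zero α π p hπ0 hD') hDP hcardT c0 hc0 hpc0 A hA hall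
  -- the shape lemma
  have key := Fermat.Agent.GB.ResOrd.AbsOrd.line_of_sq hfinrank L hLtop
    {T | ∃ σ ∈ A.inertiaSubgroupIn ℚ, T = galoisRepModuleEnd (K := AlgebraicClosure ℚ) ℚ
      (C • modelM ℚ (α : ℚ) ((π : ℚ) ^ p)) p σ}
    (by
      rintro T ⟨σ, hσ, rfl⟩ v hv
      exact hD σ (mem_decompositionSubgroup_of_mem_inertiaSubgroupIn hσ) v hv)
    (by
      rintro T ⟨σ, hσ, rfl⟩ x
      simp only [galoisRepModuleEnd_apply]
      rw [hLmem]
      change InE1 A.valuation (φ (σ • (σ • x - x) - (σ • x - x)))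
      rw [map_sub, hφ_smul, map_sub, hφ_smul]
      exact Fermat.Agent.S13.AtPGeoModel.sq_sub_one_mem_E1 hp hp2 hπ0 hcase A hA hσ (φ x)
        (hφ_tors x))
    ⟨_, ⟨σ₀, hσ₀, rfl⟩, hdet₀⟩
  refine ⟨L, key.1, hD, fun σ hσ v => key.2 _ ⟨σ, hσ, rfl⟩ v⟩

end Model

section FreyInst

/-- The model of the Frey curve at a prime `q ∣ abc`: multiplicative shape `q ∣ π`, `q ∤ α`
(the two branches of `S05.frey_model_nz` with `q ∣ abc`). -/
theorem frey_model_mult (P : FreyPackage) {q : ℕ} (hq : q.Prime)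
    (hqabc : (q : ℤ) ∣ P.a * P.b * P.c) :
    ∃ (α π : ℤ) (r : ℚ), π ≠ 0 ∧
      P.freyCurve = freyChange r • modelM ℚ (α : ℚ) ((π : ℚ) ^ P.p) ∧
      (q : ℤ) ∣ π ∧ ¬ (q : ℤ) ∣ α := by
  have hqZ : Prime (q : ℤ) := Nat.prime_iff_prime_int.mp hq
  by_cases hc : (q : ℤ) ∣ P.c
  · refine ⟨P.a ^ P.p + P.c ^ P.p, P.a * P.c, -(P.a : ℚ) ^ P.p, mul_ne_zero P.ha0 P.hc0,
      freyCurve_eq_M2 P, ?_, ?_⟩
    · exact hc.mul_left _
    · intro h
      have hcp : (q : ℤ) ∣ P.c ^ P.p := dvd_pow hc P.hp0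
      have hap : (q : ℤ) ∣ P.a ^ P.p := (dvd_add_left hcp).mp h
      exact not_dvd_both_of_gcd_eq_one hq P.hgcdac (hqZ.dvd_of_dvd_pow hap) hc
  · have hab : (q : ℤ) ∣ P.a * P.b := (hqZ.dvd_or_dvd hqabc).resolve_right hc
    refine ⟨P.b ^ P.p - P.a ^ P.p, -(P.a * P.b), 0,
      neg_ne_zero.2 (mul_ne_zero P.ha0 P.hb0), freyCurve_eq_M1 P, ?_, ?_⟩
    · exact (dvd_neg).mpr hab
    · intro h
      rcases hqZ.dvd_or_dvd hab with ha | hb
      · have hap : (q : ℤ) ∣ P.a ^ P.p := dvd_pow ha P.hp0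
        have hbp : (q : ℤ) ∣ P.b ^ P.p := (dvd_sub_left hap).mp h
        exact not_dvd_both_of_gcd_eq_one hq P.hgcdab ha (hqZ.dvd_of_dvd_pow hbp)
      · have hbp : (q : ℤ) ∣ P.b ^ P.p := dvd_pow hb P.hp0
        have hap : (q : ℤ) ∣ P.a ^ P.p := (dvd_sub_right hbp).mp h
        exact not_dvd_both_of_gcd_eq_one hq P.hgcdab (hqZ.dvd_of_dvd_pow hap) hb

/-- **Residual ordinarity at `p` of the Frey curve when `p ∣ abc`** (any curve `E` equal to
`P.freyCurve`, e.g. `P.freyCurveInt.map (Int.castRingHom ℚ)` via `S43Frey.freyCurve_eq_map`), from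
an inertia element of determinant `≠ 1` above `p`. -/
theorem frey_isOrdinaryAt_of_det (P : FreyPackage) [Fact P.p.Prime]
    (hpabc : (P.p : ℤ) ∣ P.a * P.b * P.c)
    (E : WeierstrassCurve ℚ) (hE : E = P.freyCurve)
    (hcard : Nat.card (TorsQ E P.p) = P.p ^ 2)
    (hker : GaloisFactorsThroughFiniteLevel
      (galoisRepModuleEnd (K := AlgebraicClosure ℚ) ℚ E P.p))
    (hdetI : ∀ A : ValuationSubring (AlgebraicClosure ℚ), A.LiesOverPrime P.p →
      ∃ σ₀ ∈ A.inertiaSubgroupIn ℚ,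
        LinearMap.det (galoisRepModuleEnd (K := AlgebraicClosure ℚ) ℚ E P.p σ₀) ≠ 1) :
    (GaloisRepAdic.ofResidualGaloisRep (E.residualGaloisRepOf P.p hcard hker)).IsOrdinaryAt
      P.p := by
  obtain ⟨α, π, r, hπ0, hC, hmult⟩ := frey_model_mult P P.pp hpabc
  have hp2 : P.p ≠ 2 := by have := P.hp5; omega
  have hD := disc_ne_zero_of_case P.pp (Or.inr hmult)
  have hDP : HDP (MW α π P.p) P.p :=
    Fermat.Agent.S13.DPmain.Key.hDP _ (Fermat.Agent.S13.Div.key_main _ (MW_Δ_ne_zero α π P.p hπ0 hD) P.pp hp2)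
  exact isOrdinaryAt_model_of_det hp2 hπ0 hmult hDP E (freyChange r) (hE.trans hC) hcard hker hdetI

/-- The same from the cyclotomic determinant of any base change `ρ̄ ⊗ k` (the shape provided by
`GB/Setup/RhoBar.detIsCyclotomic`). -/
theorem frey_isOrdinaryAt (P : FreyPackage) [Fact P.p.Prime]
    (hpabc : (P.p : ℤ) ∣ P.a * P.b * P.c)
    (E : WeierstrassCurve ℚ) (hE : E = P.freyCurve)
    (hcard : Nat.card (TorsQ E P.p) = P.p ^ 2)
    (hker : GaloisFactorsThroughFiniteLevel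
      (galoisRepModuleEnd (K := AlgebraicClosure ℚ) ℚ E P.p))
    (k : Type) [Field k] [Algebra (ZMod P.p) k]
    (hdet : (GaloisRepAdic.ofResidualGaloisRep
      ((E.residualGaloisRepOf P.p hcard hker).baseChange k)).DetIsCyclotomic P.p) :
    (GaloisRepAdic.ofResidualGaloisRep (E.residualGaloisRepOf P.p hcard hker)).IsOrdinaryAt
      P.p := by
  have hp2 : P.p ≠ 2 := by have := P.hp5; omega
  exact frey_isOrdinaryAt_of_det P hpabc E hE hcard hker fun A hA =>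
    exists_inertia_det_ne_one (E.residualGaloisRepOf P.p hcard hker) k P.pp hp2 hdet A hA

end FreyInst

end Fermat.Agent.GB.ResOrd.Frey
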