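/-
GATE-B / GB-PNEW, leaf (RESSTRICT), consumer form (helper39): **`P.rhobar` is residually STRICTLY
ordinary at `p`** for the SETUP bundle `P : SetupPkg.Pkg p W hcard₁ hker M A` of the `p`-new branch
(`p ∣ M`, `p ∤ M / p`, `W` not residually modular of level `M / p`), from the binder `hordbar` of
`SplitMinOrd.CaseB38minNewFO` — `Strict.residual_isStrictOrdinaryAt` at `N := M`, `N' := M / p`,
`S := P.S0`, `θ := P.theta`, `ρbar := P.rhobar`.
-/
import Fermat.Agent.GB.ResOrd.Strict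
import Fermat.Agent.GB.Setup.SetupPkg

set_option autoImplicit false
set_option linter.unusedSectionVars false

open WeierstrassCurve WeierstrassCurve.Affine.Point Polynomial IsLocalRing CuspForm
open scoped WeierstrassCurve.Affine

namespace Fermat.Agent.GB.ResOrd.StrictPkg

open Fermat.Agent.GB.Setup.RhoBar Fermat.Agent.GB.Setup.SetupPkg

variable {p : ℕ} [Fact p.Prime] {W : WeierstrassCurve ℤ}
  {hcard₁ : Nat.card (Submodule.torsionBy ℤ
    ((W.map (Int.castRingHom ℚ))⁄(AlgebraicClosure ℚ)).Point p) = p ^ 2}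
  {hker : GaloisFactorsThroughFiniteLevel
    (galoisRepModuleEnd (K := AlgebraicClosure ℚ) ℚ (W.map (Int.castRingHom ℚ)) p)}
  {M A : ℕ}

/-- residual ordinarity of `P.rhobar = ρ̄_W ⊗ k` from the `CaseB38minNewFO` binder on `ρ̄_W`. -/
theorem isOrdinaryAt_rhobar (P : Pkg p W hcard₁ hker M A)
    (hordbar : (GaloisRepAdic.ofResidualGaloisRep (rb p W hcard₁ hker)).IsOrdinaryAt p) :
    (GaloisRepAdic.ofResidualGaloisRep P.rhobar).IsOrdinaryAt p :=
  Fermat.Agent.GB.ResOrd.Plug.isOrdinaryAt_baseChange (rb p W hcard₁ hker) P.k hordbar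

/-- **(RESSTRICT), bundle form**: `P.rhobar` is strictly ordinary at `p` in the `p`-new branch. -/
theorem residual_isStrictOrdinaryAt_pkg (P : Pkg p W hcard₁ hker M A)
    (hpM : p ∣ M) (hpM' : ¬ p ∣ M / p) (hside : p = 3 → 2 ∣ M)
    (hordbar : (GaloisRepAdic.ofResidualGaloisRep (rb p W hcard₁ hker)).IsOrdinaryAt p)
    (hX : ¬ W.IsResiduallyModularOfLevel p (M / p)) :
    (GaloisRepAdic.ofResidualGaloisRep P.rhobar).IsStrictOrdinaryAt p := by
  have hp : p.Prime := Fact.out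
  have : NeZero M := P.neZeroM
  have : NeZero (M / p) := ⟨(Nat.div_ne_zero_iff_of_dvd hpM).mpr ⟨P.hM, hp.ne_zero⟩⟩
  exact Fermat.Agent.GB.ResOrd.Strict.residual_isStrictOrdinaryAt (N := M) (N' := M / p)
    (S := P.S0) (θ := P.theta) W P.hΔ (Nat.div_mul_cancel hpM).symm hpM' P.hp2 P.hpO hside
    (Finset.mem_coe.mp P.hpS0) (fun r hr hrM => Finset.mem_coe.mp (P.hMS0 r hr hrM))
    (fun ℓ hℓ hℓM hℓS => P.theta_T hℓ hℓM hℓS) hX P.rhobar P.habs
    (fun ℓ hℓ hℓM hℓS Q hQ σ hσ => ⟨_, P.hfrob ℓ hℓ hℓM hℓS Q hQ σ hσ⟩)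
    (isOrdinaryAt_rhobar P hordbar)

/-- the same with `Squarefree M` instead of `p ∤ M / p`, `5 ≤ p` instead of `hside`. -/
theorem residual_isStrictOrdinaryAt_pkg_sqfree (P : Pkg p W hcard₁ hker M A)
    (hp5 : 5 ≤ p) (hpM : p ∣ M) (hM : Squarefree M)
    (hordbar : (GaloisRepAdic.ofResidualGaloisRep (rb p W hcard₁ hker)).IsOrdinaryAt p)
    (hX : ¬ W.IsResiduallyModularOfLevel p (M / p)) :
    (GaloisRepAdic.ofResidualGaloisRep P.rhobar).IsStrictOrdinaryAt p := by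
  have hp : p.Prime := Fact.out
  refine residual_isStrictOrdinaryAt_pkg P hpM ?_ (fun h3 => by omega) hordbar hX
  intro h
  obtain ⟨c, hc⟩ := h
  have h2 : M = p * (M / p) := (Nat.mul_div_cancel' hpM).symm
  have h3 : p * p ∣ M := ⟨c, by rw [h2, hc]; ring⟩
  exact hp.not_isUnit (hM p h3)

end Fermat.Agent.GB.ResOrd.StrictPkg
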