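/-
GATE-B / GB-PNEW + PROVIDER GAPS v1 (N4), the residual type in the strict-ordinary branch
(helper39): **`ρ̄` is of the strict-ordinary FRAMED type at every Taylor–Wiles level** — the binder

  `hbar : ∀ Q, framedCond p (strictOrdinaryCondition P.O p) P.Smin P.Su Q (ofResidualGaloisRep P.rhobar)`

of helper4's `GB/B9/ThetaSupply.exists_theta_SO` / `FramedExist.nonempty_DQ_SO`.

* `condSO_ofResidual`  : SO twin of helper4's `FramedExist.condFL_ofResidual` (abstract `ρbar`);
* `hbar_SO_pkg`        : the bundle form in the `p`-new branch: `det` = `P.hdet`, strict =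
  `StrictPkg.residual_isStrictOrdinaryAt_pkg_sqfree` (from `hordbar`, `hX`), unramified outside
  `Smin ∪ Su ∪ Q` = `P.hmin`; the ONLY binder left is `hunip` (unipotent inertia of `ρ̄` on
  `Smin ∖ {p}`, helper90 GB-N4-RESTYPE).
-/
import Fermat.Agent.GB.ResOrd.StrictPkg
import Fermat.Agent.GB.Def.FramedExist

set_option autoImplicit false
set_option linter.unusedSectionVars false

open WeierstrassCurve WeierstrassCurve.Affine.Point IsLocalRing
open scoped WeierstrassCurve.Affine

namespace Fermat.Agent.GB.ResOrd.HbarSO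

open Fermat.Agent.GB.Def.FramedNodes Fermat.Agent.GB.Setup.RhoBar Fermat.Agent.GB.Setup.SetupPkg

section Abstract

variable {𝒪 : Type} [CommRing 𝒪] [IsDomain 𝒪] [IsDiscreteValuationRing 𝒪]
  [IsAdicComplete (maximalIdeal 𝒪) 𝒪] [Finite (ResidueField 𝒪)]
  {p : ℕ} [Fact p.Prime] {ρbar : ResidualGaloisRep (ResidueField 𝒪)}

/-- `ρ̄` is of the strict-ordinary framed type at every level `T ⊇ Smin`, from the residual
binders (SO twin of `FramedExist.condFL_ofResidual`). -/
theorem condSO_ofResidual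
    (hdet : (GaloisRepAdic.ofResidualGaloisRep ρbar).DetIsCyclotomic p)
    {Smin : Finset ℕ} (hpSmin : p ∈ Smin)
    (hmin : ∀ q : ℕ, q.Prime → q ≠ p → (q ∈ Smin ↔ ¬ ρbar.IsUnramifiedAt q))
    (hstrict : (GaloisRepAdic.ofResidualGaloisRep ρbar).IsStrictOrdinaryAt p)
    (hunip : ∀ q ∈ Smin, q.Prime → q ≠ p →
      (GaloisRepAdic.ofResidualGaloisRep ρbar).IsUnipotentOnInertiaAt q)
    (Su Q : Finset ℕ) :
    framedCond p (GaloisRep.strictOrdinaryCondition 𝒪 p) Smin Su Q
      (GaloisRepAdic.ofResidualGaloisRep ρbar) := by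
  refine ⟨⟨hdet, hstrict, fun q hq hqT => ?_⟩, hunip⟩
  have hqS : q ∉ Smin := fun h =>
    hqT (Finset.mem_union_left _ (Finset.mem_union_left _ h))
  have hqp : q ≠ p := fun h => hqS (h ▸ hpSmin)
  have hur : ρbar.IsUnramifiedAt q := by
    by_contra hram
    exact hqS ((hmin q hq hqp).2 hram)
  exact hur

end Abstract

section Bundle

variable {p : ℕ} [Fact p.Prime] {W : WeierstrassCurve ℤ}
  {hcard₁ : Nat.card (Submodule.torsionBy ℤ
    ((W.map (Int.castRingHom ℚ))⁄(AlgebraicClosure ℚ)).Point p) = p ^ 2}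
  {hker : GaloisFactorsThroughFiniteLevel
    (galoisRepModuleEnd (K := AlgebraicClosure ℚ) ℚ (W.map (Int.castRingHom ℚ)) p)}
  {M A : ℕ}

/-- **the `hbar` binder of `ThetaSupply.exists_theta_SO`** in the `p`-new branch; only `hunip`
is left as a binder. -/
theorem hbar_SO_pkg (P : Pkg p W hcard₁ hker M A)
    (hp5 : 5 ≤ p) (hpM : p ∣ M) (hM : Squarefree M)
    (hordbar : (GaloisRepAdic.ofResidualGaloisRep (rb p W hcard₁ hker)).IsOrdinaryAt p)
    (hX : ¬ W.IsResiduallyModularOfLevel p (M / p))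
    (hunip : ∀ q ∈ P.Smin, q.Prime → q ≠ p →
      (GaloisRepAdic.ofResidualGaloisRep P.rhobar).IsUnipotentOnInertiaAt q)
    (Q : Finset ℕ) :
    framedCond p (GaloisRep.strictOrdinaryCondition P.O p) P.Smin P.Su Q
      (GaloisRepAdic.ofResidualGaloisRep P.rhobar) :=
  condSO_ofResidual P.hdet P.p_mem_Smin P.hmin
    (Fermat.Agent.GB.ResOrd.StrictPkg.residual_isStrictOrdinaryAt_pkg_sqfree P hp5 hpM hM
      hordbar hX) hunip P.Su Q

end Bundle

end Fermat.Agent.GB.ResOrd.HbarSO
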