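/-
GATE-B / GB-PNEW, leaf (RESSTRICT) (helper39; helper32 board 6301 (S2)): **residual STRICT
ordinarity of `ρ̄` in the `p`-new branch**, the `IsStrictOrdinaryAt p` clause of the binder
`hbar : condSO 𝒪 p T Smin (ofResidualGaloisRep ρbar)` of `CondPlug.exists_deformationRingData_SO`.

Route (helper69 5826 §3 / 6072 §3), through the MODULAR side at the UNTWISTED level `N = N' p`:

  `hordbar` ⟹ (ResOrd/Plug) `hres` for the level-`N` datum `H` of `DatumOfRhobar.exists_datum`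
  ⟹ (B10' : `Consumer.isStrictOrdinaryAt_of_not_resMod_level_res`, `hno : ¬ ResMod(p, N')`)
  `H.ρ.IsStrictOrdinaryAt p` ⟹ (base change to the residue field of `Tloc`, equivalence,
  descent along the field isomorphism `k ≅ k_T`) `(ofResidualGaloisRep ρbar).IsStrictOrdinaryAt p`.

* `isStrictOrdinaryAt_ofResidual_residual` : `ρ` strict ⟹ `ofResidualGaloisRep ρ.residual` strict;
* `isStrictOrdinaryAt_of_residual_isEquiv` : descent: `ρ` over a local ring `T` strict, `ρ.residual ≃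
  ρbar ⊗_ι k_T` with `ι : k → k_T` SURJECTIVE ⟹ `ofResidualGaloisRep ρbar` strict
  (the argument of helper64's `GP.Tan.residual_transfer` over any local ring);
* `residueFieldMap_Tloc_surjective` : `k → ResidueField (Tloc 𝒪 θ)` is onto;
* **`residual_isStrictOrdinaryAt`** : the export.
-/
import Fermat.Agent.GP.Tan.CondIsEquiv
import Fermat.Agent.GB.B10.Consumer
import Fermat.Agent.GB.Glue.DatumOfRhobar
import Fermat.Agent.GB.ResOrd.Plug

set_option autoImplicit false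
set_option linter.unusedSectionVars false

noncomputable section

namespace Fermat.Agent.GB.ResOrd.Strict

open CuspForm IsLocalRing Polynomial
open Fermat.Agent.GB.B4.Datum.Carrier

local notation "GQ" => (AlgebraicClosure ℚ ≃ₐ[ℚ] AlgebraicClosure ℚ)
local notation "Qb" => AlgebraicClosure ℚ

section Descent

variable {T : Type} [CommRing T] [IsLocalRing T]

/-- strict ordinarity passes to the residual representation. -/
theorem isStrictOrdinaryAt_ofResidual_residual {ρ : GaloisRepAdic T} {p : ℕ}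
    (h : ρ.IsStrictOrdinaryAt p) :
    (GaloisRepAdic.ofResidualGaloisRep ρ.residual).IsStrictOrdinaryAt p :=
  Fermat.Agent.GP.Tan.isStrictOrdinaryAt_baseChangeAlong (IsLocalRing.residue T) inferInstance h

/-- **Descent of strict ordinarity to `ρbar`**: `ρ` over a local ring `T` strictly ordinary at `p`,
`ρ.residual ≃ ρbar ⊗_ι k_T` for a SURJECTIVE `ι : k → k_T` ⟹ `ρbar` strictly ordinary at `p`. -/
theorem isStrictOrdinaryAt_of_residual_isEquiv {k : Type} [Field k]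
    (ι : k →+* ResidueField T) (hι : Function.Surjective ι) (ρbar : ResidualGaloisRep k)
    {ρ : GaloisRepAdic T} (hres : ρ.residual.IsEquiv (ρbar.baseChangeAlong ι)) {p : ℕ}
    (h : ρ.IsStrictOrdinaryAt p) :
    (GaloisRepAdic.ofResidualGaloisRep ρbar).IsStrictOrdinaryAt p := by
  have hιbij : Function.Bijective ι := ⟨ι.injective, hι⟩
  let E : k ≃+* ResidueField T := RingEquiv.ofBijective ι hιbij
  let ι' : ResidueField T →+* k := E.symm.toRingHom
  have hcomp : ι'.comp ι = RingHom.id k := by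
    refine RingHom.ext fun x => ?_
    exact E.symm_apply_apply x
  -- step 1: reduce modulo the maximal ideal
  have h2 : (GaloisRepAdic.ofResidualGaloisRep ρ.residual).IsStrictOrdinaryAt p :=
    isStrictOrdinaryAt_ofResidual_residual h
  -- step 2: transport along the equivalence
  have h3 : (GaloisRepAdic.ofResidualGaloisRep (ρbar.baseChangeAlong ι)).IsStrictOrdinaryAt p :=
    Fermat.Agent.GP.Tan.isStrictOrdinaryAt_of_isEquiv
      (Fermat.Agent.GP.Tan.ofResidualGaloisRep_isEquiv hres) h2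
  have h4 : ((GaloisRepAdic.ofResidualGaloisRep ρbar).baseChangeAlong ι
      (Fermat.Agent.GP.Tan.isLocalHom_of_field ι)).IsStrictOrdinaryAt p := h3
  -- step 3: come back along `ι⁻¹`
  have h5 := Fermat.Agent.GP.Tan.isStrictOrdinaryAt_baseChangeAlong ι'
    (Fermat.Agent.GP.Tan.isLocalHom_of_field ι') h4
  obtain ⟨e6⟩ := Fermat.Agent.GP.Top.baseChangeAlong_comp_isEquiv
    (GaloisRepAdic.ofResidualGaloisRep ρbar) ι (Fermat.Agent.GP.Tan.isLocalHom_of_field ι) ι'
    (Fermat.Agent.GP.Tan.isLocalHom_of_field ι')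
  have h6 := Fermat.Agent.GP.Tan.isStrictOrdinaryAt_of_isEquiv ⟨e6⟩ h5
  exact Fermat.Agent.GP.Tan.isStrictOrdinaryAt_of_isEquiv
    (Fermat.Agent.GP.Tan.baseChangeAlong_isEquiv_of_eq_id _ _ _ hcomp) h6

end Descent

section Tloc

variable (𝒪 : Type) [CommRing 𝒪] [IsLocalRing 𝒪] [IsNoetherianRing 𝒪]
  [IsAdicComplete (maximalIdeal 𝒪) 𝒪] {A : Type} [CommRing A] [Module.Finite ℤ A]

/-- the residue field of `Tloc 𝒪 θ` is the one of `𝒪`. -/
theorem residueFieldMap_Tloc_surjective (θ : A →+* ResidueField 𝒪) :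
    Function.Surjective (ResidueField.map (algebraMap 𝒪 (Tloc 𝒪 θ))) := by
  intro y
  obtain ⟨x, hx⟩ := residue_comp_algebraMap_surjective 𝒪 θ y
  refine ⟨residue 𝒪 x, ?_⟩
  rw [ResidueField.map_residue]
  exact hx

end Tloc

section Export

variable {N N' p : ℕ} [NeZero N] [NeZero N'] [Fact p.Prime] {S : Finset ℕ}
  {𝒪 : Type} [CommRing 𝒪] [IsDomain 𝒪] [IsDiscreteValuationRing 𝒪]
  [IsAdicComplete (IsLocalRing.maximalIdeal 𝒪) 𝒪] [Finite (ResidueField 𝒪)] [CharZero 𝒪]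
  {θ : CuspForm.heckeAlgebra N 2 (↑S : Set ℕ) →+* IsLocalRing.ResidueField 𝒪}

/-- **(RESSTRICT)**: in the `p`-new branch (`N = N' p`, `p ∤ N'`, `W` NOT residually modular of
level `N'`, `θ(T_ℓ) = a_ℓ(W)`), an absolutely irreducible `ρbar` with the Frobenius characteristic
polynomials of `θ` which is residually ORDINARY at `p` is residually STRICTLY ordinary at `p`. -/
theorem residual_isStrictOrdinaryAt (W : WeierstrassCurve ℤ) (hΔ : W.Δ ≠ 0)
    (hN : N = N' * p) (hpN' : ¬ p ∣ N') (hp2 : p ≠ 2) (hp𝒪 : (p : 𝒪) ∈ maximalIdeal 𝒪)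
    (hside : p = 3 → 2 ∣ N) (hpS : p ∈ S)
    (hNS : ∀ r : ℕ, r.Prime → r ∣ N → r ∈ S)
    (hθ : ∀ (ℓ : ℕ) (hℓ : ℓ.Prime) (hℓN : ¬ ℓ ∣ N) (hℓS : ℓ ∉ (↑S : Set ℕ)),
      θ (heckeAlgebra.T hℓ hℓN hℓS) = ((W.apOfModel ℓ : ℤ) : IsLocalRing.ResidueField 𝒪))
    (hno : ¬ W.IsResiduallyModularOfLevel p N')
    (ρbar : ResidualGaloisRep (ResidueField 𝒪)) (habs : ρbar.IsAbsolutelyIrreducible)
    (hfrob : ∀ (ℓ : ℕ) (hℓ : ℓ.Prime) (hℓN : ¬ ℓ ∣ N) (hℓS : ℓ ∉ (↑S : Set ℕ)),
      ∀ P : ValuationSubring Qb, P.LiesOverPrime ℓ → ∀ σ : GQ, P.IsFrobeniusAt σ ℓ →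
        ∃ d₀ : ResidueField 𝒪, LinearMap.charpoly (ρbar.ρ σ) =
          X ^ 2 - C (θ (heckeAlgebra.T hℓ hℓN hℓS)) * X + C d₀)
    (hordbar : (GaloisRepAdic.ofResidualGaloisRep ρbar).IsOrdinaryAt p) :
    (GaloisRepAdic.ofResidualGaloisRep ρbar).IsStrictOrdinaryAt p := by
  obtain ⟨H, -, -, -, hres'⟩ :=
    Fermat.Agent.GB.Glue.DatumOfRhobar.exists_datum p N S 𝒪 θ hp2 hpS hNS hp𝒪 ρbar habs hfrob
  have hres : (GaloisRepAdic.ofResidualGaloisRep H.ρ.residual).IsOrdinaryAt p := by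
    obtain ⟨e⟩ := hres'
    exact Fermat.Agent.GB.ResOrd.Plug.isOrdinaryAt_of_isEquiv ⟨e.symm⟩
      (Fermat.Agent.GB.ResOrd.Plug.isOrdinaryAt_baseChangeAlong ρbar _ hordbar)
  have hstrict : H.ρ.IsStrictOrdinaryAt p :=
    Fermat.Agent.GB.B10.Consumer.isStrictOrdinaryAt_of_not_resMod_level_res W hΔ hN hpN' hp2 hp𝒪
      hside hNS H hθ hno hres
  exact isStrictOrdinaryAt_of_residual_isEquiv (ResidueField.map (algebraMap 𝒪 (Tloc 𝒪 θ)))
    (residueFieldMap_Tloc_surjective 𝒪 θ) ρbar hres' hstrict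

end Export

end Fermat.Agent.GB.ResOrd.Strict
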