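/-
GATE-B / GB-PNEW, leaf (RESSTRICT) (a)+(b)+(c) of helper32 6301 (S2) (helper78):
**descent of a local condition from an adic representation `ρ` over a local ring `T` to a residual
representation `ρbar` over a field `k` with `k ↠ ResidueField T`** (hence `k ≅ ResidueField T`) and
`ρ.residual ≅ ρbar ⊗_ι k_T`.

This is helper64's `GP.Tan.residual_transfer` (stated there for `T = k[ε]`) for an ARBITRARY local
ring `T`; the three steps are
 (a) `ρ ⊗_T k_T` is `ofResidualGaloisRep ρ.residual` (definitionally),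
 (b) invariance under `IsEquiv` (`GP.Tan.isStrictOrdinaryAt_of_isEquiv`),
 (c) descent along the bijection `ι : k → k_T` (base change along `ι⁻¹`, `ι⁻¹ ∘ ι = id`).

Main exports:
* `residual_descend` : the transfer principle for any property `Pr` stable under surjective base
  change and equivalence;
* `isStrictOrdinaryAt_ofResidual` : `ρ.IsStrictOrdinaryAt p ⟹ (ofResidualGaloisRep ρbar).IsStrictOrdinaryAt p`;
* `isStrictOrdinaryAt_ofResidual_of_bijective`, `isStrictOrdinaryAt_descend_bijective` : the field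
  steps (b)+(c) alone.
-/
import Fermat.Agent.GP.Tan.CondIsEquiv

set_option autoImplicit false
set_option linter.unusedSectionVars false

open scoped TensorProduct
open IsLocalRing

namespace Fermat.Agent.GB.ResOrd.StrictTransport

open Fermat.Agent.GP.Tan Fermat.Agent.GP.Top

/-- **Transfer principle (general coefficient ring)**: a property of adic Galois representations
that is stable under surjective base change and under equivalence passes from `ρ` over `T` to any
residual representation `ρbar` over a field `k` with a surjection `ι : k → ResidueField T` and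
`ρ.residual ≅ ρbar ⊗_ι k_T`. -/
theorem residual_descend
    (Pr : ∀ ⦃B : Type⦄ [CommRing B] [IsLocalRing B], GaloisRepAdic B → Prop)
    (hbc : ∀ ⦃B C : Type⦄ [CommRing B] [IsLocalRing B] [CommRing C] [IsLocalRing C]
      (φ : B →+* C) (hφ : IsLocalHom φ), Function.Surjective φ →
      ∀ ⦃ρ : GaloisRepAdic B⦄, Pr ρ → Pr (ρ.baseChangeAlong φ hφ))
    (heq : ∀ ⦃B : Type⦄ [CommRing B] [IsLocalRing B] ⦃ρ ρ' : GaloisRepAdic B⦄,
      ρ.IsEquiv ρ' → Pr ρ → Pr ρ')
    {T : Type} [CommRing T] [IsLocalRing T] {k : Type} [Field k]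
    (ρbar : ResidualGaloisRep k) (ι : k →+* ResidueField T) (hι : Function.Surjective ι)
    {ρ : GaloisRepAdic T} (hres : ρ.residual.IsEquiv (ρbar.baseChangeAlong ι))
    (h : Pr ρ) : Pr (GaloisRepAdic.ofResidualGaloisRep ρbar) := by
  have hιbij : Function.Bijective ι := ⟨ι.injective, hι⟩
  let E : k ≃+* ResidueField T := RingEquiv.ofBijective ι hιbij
  let ι' : ResidueField T →+* k := E.symm.toRingHom
  have hι'surj : Function.Surjective ι' := E.symm.surjective
  have hcomp : ι'.comp ι = RingHom.id k := by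
    refine RingHom.ext fun x => ?_
    exact E.symm_apply_apply x
  -- (a): reduce modulo the maximal ideal
  have h1 : Pr (ρ.baseChangeAlong (IsLocalRing.residue T) inferInstance) :=
    hbc _ _ IsLocalRing.residue_surjective h
  have h2 : Pr (GaloisRepAdic.ofResidualGaloisRep ρ.residual) := h1
  -- (b): transport along the equivalence
  have h3 : Pr (GaloisRepAdic.ofResidualGaloisRep (ρbar.baseChangeAlong ι)) :=
    heq (ofResidualGaloisRep_isEquiv hres) h2
  have h4 : Pr ((GaloisRepAdic.ofResidualGaloisRep ρbar).baseChangeAlong ι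
      (isLocalHom_of_field ι)) := h3
  -- (c): come back along `ι⁻¹`
  have h5 := hbc ι' (isLocalHom_of_field ι') hι'surj h4
  obtain ⟨e6⟩ := baseChangeAlong_comp_isEquiv (GaloisRepAdic.ofResidualGaloisRep ρbar) ι
    (isLocalHom_of_field ι) ι' (isLocalHom_of_field ι')
  have h6 := heq ⟨e6⟩ h5
  exact heq (baseChangeAlong_isEquiv_of_eq_id _ _ _ hcomp) h6

/-- **(RESSTRICT) (a)+(b)+(c)**: strict ordinarity of `ρ` over `T` descends to `ρbar` over `k`
when `ρ.residual ≅ ρbar ⊗_ι k_T` and `ι : k → k_T` is onto. -/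
theorem isStrictOrdinaryAt_ofResidual {T : Type} [CommRing T] [IsLocalRing T] {k : Type} [Field k]
    (ρbar : ResidualGaloisRep k) (ι : k →+* ResidueField T) (hι : Function.Surjective ι)
    {ρ : GaloisRepAdic T} (hres : ρ.residual.IsEquiv (ρbar.baseChangeAlong ι)) {p : ℕ}
    (h : ρ.IsStrictOrdinaryAt p) :
    (GaloisRepAdic.ofResidualGaloisRep ρbar).IsStrictOrdinaryAt p :=
  residual_descend (fun _ _ _ ρ => ρ.IsStrictOrdinaryAt p)
    (fun _ _ _ _ _ _ φ hφ _ _ hρ => isStrictOrdinaryAt_baseChangeAlong φ hφ hρ)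
    (fun _ _ _ _ _ he hρ => isStrictOrdinaryAt_of_isEquiv he hρ)
    ρbar ι hι hres h

/-- (b) for residual representations: the frozen `IsStrictOrdinaryAt` is invariant under
`ResidualGaloisRep.IsEquiv` (strict twin of `GB/ResOrd/Plug.isOrdinaryAt_of_isEquiv`). -/
theorem isStrictOrdinaryAt_of_isEquiv_residual {k : Type} [Field k] {ρ₁ ρ₂ : ResidualGaloisRep k}
    (he : ρ₁.IsEquiv ρ₂) {p : ℕ}
    (h : (GaloisRepAdic.ofResidualGaloisRep ρ₁).IsStrictOrdinaryAt p) :
    (GaloisRepAdic.ofResidualGaloisRep ρ₂).IsStrictOrdinaryAt p :=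
  isStrictOrdinaryAt_of_isEquiv (ofResidualGaloisRep_isEquiv he) h

/-- forward base change of the frozen `IsStrictOrdinaryAt` for residual representations (strict
twin of `GB/ResOrd/Plug.isOrdinaryAt_baseChangeAlong`). -/
theorem isStrictOrdinaryAt_baseChangeAlong_residual {k₀ : Type} [Field k₀]
    (ρ : ResidualGaloisRep k₀) {k : Type} [Field k] (φ : k₀ →+* k) {p : ℕ}
    (h : (GaloisRepAdic.ofResidualGaloisRep ρ).IsStrictOrdinaryAt p) :
    (GaloisRepAdic.ofResidualGaloisRep (ρ.baseChangeAlong φ)).IsStrictOrdinaryAt p := by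
  have h1 : ((GaloisRepAdic.ofResidualGaloisRep ρ).baseChangeAlong φ
      (isLocalHom_of_field φ)).IsStrictOrdinaryAt p :=
    isStrictOrdinaryAt_baseChangeAlong φ (isLocalHom_of_field φ) h
  exact h1

/-- (c): descent of the frozen `IsStrictOrdinaryAt` along a BIJECTIVE field homomorphism. -/
theorem isStrictOrdinaryAt_descend_bijective {k : Type} [Field k] (ρbar : ResidualGaloisRep k)
    {k' : Type} [Field k'] (ι : k →+* k') (hι : Function.Surjective ι) {p : ℕ}
    (h : (GaloisRepAdic.ofResidualGaloisRep (ρbar.baseChangeAlong ι)).IsStrictOrdinaryAt p) :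
    (GaloisRepAdic.ofResidualGaloisRep ρbar).IsStrictOrdinaryAt p := by
  have hιbij : Function.Bijective ι := ⟨ι.injective, hι⟩
  let E : k ≃+* k' := RingEquiv.ofBijective ι hιbij
  let ι' : k' →+* k := E.symm.toRingHom
  have hcomp : ι'.comp ι = RingHom.id k := by
    refine RingHom.ext fun x => ?_
    exact E.symm_apply_apply x
  have h4 : ((GaloisRepAdic.ofResidualGaloisRep ρbar).baseChangeAlong ι
      (isLocalHom_of_field ι)).IsStrictOrdinaryAt p := h
  have h5 := isStrictOrdinaryAt_baseChangeAlong ι' (isLocalHom_of_field ι') h4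
  obtain ⟨e6⟩ := baseChangeAlong_comp_isEquiv (GaloisRepAdic.ofResidualGaloisRep ρbar) ι
    (isLocalHom_of_field ι) ι' (isLocalHom_of_field ι')
  have h6 := isStrictOrdinaryAt_of_isEquiv ⟨e6⟩ h5
  exact isStrictOrdinaryAt_of_isEquiv (baseChangeAlong_isEquiv_of_eq_id _ _ _ hcomp) h6

/-- (b)+(c) together, in the shape of `GB/ResOrd/Plug.hres_of_isEquiv_baseChangeAlong` read
backwards: `ρ' ≅ ρbar ⊗_ι k'` with `ι` onto and `ρ'` strict ⟹ `ρbar` strict. -/
theorem isStrictOrdinaryAt_ofResidual_of_bijective {k : Type} [Field k]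
    (ρbar : ResidualGaloisRep k) {k' : Type} [Field k'] (ι : k →+* k')
    (hι : Function.Surjective ι) {ρ' : ResidualGaloisRep k'}
    (he : ρ'.IsEquiv (ρbar.baseChangeAlong ι)) {p : ℕ}
    (h : (GaloisRepAdic.ofResidualGaloisRep ρ').IsStrictOrdinaryAt p) :
    (GaloisRepAdic.ofResidualGaloisRep ρbar).IsStrictOrdinaryAt p :=
  isStrictOrdinaryAt_descend_bijective ρbar ι hι (isStrictOrdinaryAt_of_isEquiv_residual he h)

end Fermat.Agent.GB.ResOrd.StrictTransport
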