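/-
GATE-B / ProviderFlat, (N4)-residue of helper28's PROVIDER GAPS v1 (helper90): **the residual TYPE of
`ρ̄` in the FLAT branch** — the binders `hflat`, `hunip` of `GB/B9/ThetaSupply.exists_theta_FL` and
`GB/Def/FramedExist.nonempty_DQ_FL` — the flat twin of helper39's
`GB/ResOrd/Strict.residual_isStrictOrdinaryAt`.

Route, through the MODULAR side at the level `N` (`p ∤ N`): the level-`N` datum `H` over `Tloc 𝒪 θ`
of `DatumOfRhobar.exists_datum` has `H.ρ.IsFlatAt p` (`S32.result`, `p ∤ N`) and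
`H.ρ.IsUnipotentOnInertiaAt q` at every `q ∥ N`, `q ≠ p` (`S34.result`); both properties are stable
under surjective base change and equivalence, so they descend to `ρbar` by helper78's
`StrictTransport.residual_descend` (`H.ρ.residual ≅ ρbar ⊗ k_T`, `k → k_T` onto).

* `isFlatAt_ofResidual`, `isUnipotentOnInertiaAt_ofResidual`, `isUnramifiedAt_ofResidual` :
  the descent steps (any local `T`);
* **`residual_isFlatAt`** : `p ∤ N`, `ρbar` absolutely irreducible with the Frobenius characteristic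
  polynomials of `θ` ⟹ `(ofResidualGaloisRep ρbar).IsFlatAt p`;
* **`residual_isUnipotentOnInertiaAt`** : the same at `q ∥ N`, `q ≠ p` (any `N`);
* `residual_isUnramifiedAt` : at `q ∤ N`, `q ≠ p`;
* `residual_type_flat` : both binders of `exists_theta_FL` at once, `Smin ⊆ primes(N) ∪ {p}`, `N`
  squarefree.
-/
import Fermat.Agent.GB.ResOrd.StrictTransport
import Fermat.Agent.GB.ResOrd.Strict
import Fermat.Agent.GB.Def.CondFlatAtom
import Fermat.Agent.GB.Glue.DatumOfRhobar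
import Fermat.Agent.S32
import Fermat.Agent.S34

set_option autoImplicit false
set_option linter.unusedSectionVars false

noncomputable section

namespace Fermat.Agent.GB.ResOrd.FlatRes

open CuspForm IsLocalRing Polynomial
open Fermat.Agent.GB.B4.Datum.Carrier
open Fermat.Agent.GB.ResOrd.StrictTransport

local notation "GQ" => (AlgebraicClosure ℚ ≃ₐ[ℚ] AlgebraicClosure ℚ)
local notation "Qb" => AlgebraicClosure ℚ

/-! ### descent to the residual representation -/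

section Descent

variable {T : Type} [CommRing T] [IsLocalRing T] {k : Type} [Field k]

/-- a surjective local homomorphism induces a surjection on residue fields; finiteness passes. -/
theorem finite_residueField_of_surjective {B C : Type} [CommRing B] [IsLocalRing B] [CommRing C]
    [IsLocalRing C] (φ : B →+* C) (hφ : IsLocalHom φ) (hsurj : Function.Surjective φ)
    (hB : Finite (ResidueField B)) : Finite (ResidueField C) := by
  haveI := hφ
  haveI := hB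
  refine Finite.of_surjective (ResidueField.map φ) ?_
  intro y
  obtain ⟨c, rfl⟩ := IsLocalRing.residue_surjective y
  obtain ⟨b, rfl⟩ := hsurj c
  exact ⟨residue B b, ResidueField.map_residue φ b⟩

/-- **flatness descends to `ρbar`**. -/
theorem isFlatAt_ofResidual {p : ℕ} [Fact p.Prime]
    (ρbar : ResidualGaloisRep k) (ι : k →+* ResidueField T) (hι : Function.Surjective ι)
    {ρ : GaloisRepAdic T} (hres : ρ.residual.IsEquiv (ρbar.baseChangeAlong ι))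
    (h : ρ.IsFlatAt p) : (GaloisRepAdic.ofResidualGaloisRep ρbar).IsFlatAt p :=
  residual_descend (fun _ _ _ ρ => ρ.IsFlatAt p)
    (fun _ _ _ _ _ _ φ hφ hsurj _ hρ =>
      Fermat.Agent.GB.Def.CondFlat.isFlatAt_baseChangeAlong φ hφ
        (finite_residueField_of_surjective φ hφ hsurj hρ.1) hρ)
    (fun _ _ _ _ _ he hρ => Fermat.Agent.GB.Def.CondFlat.isFlatAt_of_isEquiv he hρ)
    ρbar ι hι hres h

/-- **unipotent inertia descends to `ρbar`**. -/
theorem isUnipotentOnInertiaAt_ofResidual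
    (ρbar : ResidualGaloisRep k) (ι : k →+* ResidueField T) (hι : Function.Surjective ι)
    {ρ : GaloisRepAdic T} (hres : ρ.residual.IsEquiv (ρbar.baseChangeAlong ι)) {q : ℕ}
    (h : ρ.IsUnipotentOnInertiaAt q) :
    (GaloisRepAdic.ofResidualGaloisRep ρbar).IsUnipotentOnInertiaAt q :=
  residual_descend (fun _ _ _ ρ => ρ.IsUnipotentOnInertiaAt q)
    (fun _ _ _ _ _ _ φ hφ _ _ hρ =>
      Fermat.Agent.GP.Tan.isUnipotentOnInertiaAt_baseChangeAlong φ hφ hρ)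
    (fun _ _ _ _ _ he hρ =>
      Fermat.Agent.GP.Loc.UnipGlue.isUnipotentOnInertiaAt_of_isEquiv he hρ)
    ρbar ι hι hres h

end Descent

/-! ### the exports -/

section Export

variable {N p : ℕ} [NeZero N] [Fact p.Prime] {S : Finset ℕ}
  {𝒪 : Type} [CommRing 𝒪] [IsDomain 𝒪] [IsDiscreteValuationRing 𝒪]
  [IsAdicComplete (IsLocalRing.maximalIdeal 𝒪) 𝒪] [Finite (ResidueField 𝒪)] [CharZero 𝒪]
  {θ : CuspForm.heckeAlgebra N 2 (↑S : Set ℕ) →+* IsLocalRing.ResidueField 𝒪}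

/-- **(N4), flat clause**: `p ∤ N` ⟹ an absolutely irreducible `ρbar` with the Frobenius
characteristic polynomials of `θ` is FLAT at `p`. -/
theorem residual_isFlatAt (hpN : ¬ p ∣ N) (hp2 : p ≠ 2) (hp𝒪 : (p : 𝒪) ∈ maximalIdeal 𝒪)
    (hpS : p ∈ S) (hNS : ∀ r : ℕ, r.Prime → r ∣ N → r ∈ S)
    (ρbar : ResidualGaloisRep (ResidueField 𝒪)) (habs : ρbar.IsAbsolutelyIrreducible)
    (hfrob : ∀ (ℓ : ℕ) (hℓ : ℓ.Prime) (hℓN : ¬ ℓ ∣ N) (hℓS : ℓ ∉ (↑S : Set ℕ)),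
      ∀ P : ValuationSubring Qb, P.LiesOverPrime ℓ → ∀ σ : GQ, P.IsFrobeniusAt σ ℓ →
        ∃ d₀ : ResidueField 𝒪, LinearMap.charpoly (ρbar.ρ σ) =
          X ^ 2 - C (θ (heckeAlgebra.T hℓ hℓN hℓS)) * X + C d₀) :
    (GaloisRepAdic.ofResidualGaloisRep ρbar).IsFlatAt p := by
  obtain ⟨H, -, -, -, hres'⟩ :=
    Fermat.Agent.GB.Glue.DatumOfRhobar.exists_datum p N S 𝒪 θ hp2 hpS hNS hp𝒪 ρbar habs hfrob
  have hflat : H.ρ.IsFlatAt p :=
    Fermat.Agent.S32.result (Fact.out : p.Prime) hp2 hp𝒪 hpN hpS hNS H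
  exact isFlatAt_ofResidual ρbar (ResidueField.map (algebraMap 𝒪 (Tloc 𝒪 θ)))
    (Fermat.Agent.GB.ResOrd.Strict.residueFieldMap_Tloc_surjective 𝒪 θ) hres' hflat

/-- **(N4), unipotent clause**: at `q ∥ N`, `q ≠ p`, `ρbar` has unipotent inertia. -/
theorem residual_isUnipotentOnInertiaAt (hp2 : p ≠ 2) (hp𝒪 : (p : 𝒪) ∈ maximalIdeal 𝒪)
    (hpS : p ∈ S) (hNS : ∀ r : ℕ, r.Prime → r ∣ N → r ∈ S)
    (ρbar : ResidualGaloisRep (ResidueField 𝒪)) (habs : ρbar.IsAbsolutelyIrreducible)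
    (hfrob : ∀ (ℓ : ℕ) (hℓ : ℓ.Prime) (hℓN : ¬ ℓ ∣ N) (hℓS : ℓ ∉ (↑S : Set ℕ)),
      ∀ P : ValuationSubring Qb, P.LiesOverPrime ℓ → ∀ σ : GQ, P.IsFrobeniusAt σ ℓ →
        ∃ d₀ : ResidueField 𝒪, LinearMap.charpoly (ρbar.ρ σ) =
          X ^ 2 - C (θ (heckeAlgebra.T hℓ hℓN hℓS)) * X + C d₀)
    (q : ℕ) (hq : q.Prime) (hqp : q ≠ p) (hqN : q ∣ N) (hq2 : ¬ q ^ 2 ∣ N) :
    (GaloisRepAdic.ofResidualGaloisRep ρbar).IsUnipotentOnInertiaAt q := by
  obtain ⟨H, -, -, -, hres'⟩ :=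
    Fermat.Agent.GB.Glue.DatumOfRhobar.exists_datum p N S 𝒪 θ hp2 hpS hNS hp𝒪 ρbar habs hfrob
  have hu : H.ρ.IsUnipotentOnInertiaAt q :=
    Fermat.Agent.S34.result (Fact.out : p.Prime) hp𝒪 hpS hNS H q hq hqp hqN hq2
  exact isUnipotentOnInertiaAt_ofResidual ρbar (ResidueField.map (algebraMap 𝒪 (Tloc 𝒪 θ)))
    (Fermat.Agent.GB.ResOrd.Strict.residueFieldMap_Tloc_surjective 𝒪 θ) hres' hu

/-- **both binders of `ThetaSupply.exists_theta_FL` at once**: `N` squarefree, `p ∤ N`,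
`Smin ⊆ primes(N) ∪ {p}`. -/
theorem residual_type_flat (hpN : ¬ p ∣ N) (hsq : Squarefree N) (hp2 : p ≠ 2)
    (hp𝒪 : (p : 𝒪) ∈ maximalIdeal 𝒪)
    (hpS : p ∈ S) (hNS : ∀ r : ℕ, r.Prime → r ∣ N → r ∈ S)
    (ρbar : ResidualGaloisRep (ResidueField 𝒪)) (habs : ρbar.IsAbsolutelyIrreducible)
    (hfrob : ∀ (ℓ : ℕ) (hℓ : ℓ.Prime) (hℓN : ¬ ℓ ∣ N) (hℓS : ℓ ∉ (↑S : Set ℕ)),
      ∀ P : ValuationSubring Qb, P.LiesOverPrime ℓ → ∀ σ : GQ, P.IsFrobeniusAt σ ℓ →
        ∃ d₀ : ResidueField 𝒪, LinearMap.charpoly (ρbar.ρ σ) =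
          X ^ 2 - C (θ (heckeAlgebra.T hℓ hℓN hℓS)) * X + C d₀)
    (Smin : Finset ℕ) (hSmin : ∀ q ∈ Smin, q.Prime → q ≠ p → q ∣ N) :
    (GaloisRepAdic.ofResidualGaloisRep ρbar).IsFlatAt p ∧
      ∀ q ∈ Smin, q.Prime → q ≠ p →
        (GaloisRepAdic.ofResidualGaloisRep ρbar).IsUnipotentOnInertiaAt q := by
  refine ⟨residual_isFlatAt hpN hp2 hp𝒪 hpS hNS ρbar habs hfrob, fun q hqS hq hqp => ?_⟩
  have hqN : q ∣ N := hSmin q hqS hq hqp
  have hq2 : ¬ q ^ 2 ∣ N := by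
    intro h
    have h1 : q * q ∣ N := by rwa [pow_two] at h
    exact hq.one_lt.ne' (Nat.isUnit_iff.1 (hsq q h1))
  exact residual_isUnipotentOnInertiaAt hp2 hp𝒪 hpS hNS ρbar habs hfrob q hq hqp hqN hq2

end Export

end Fermat.Agent.GB.ResOrd.FlatRes
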