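/-
GATE-B / GB-PNEW, leaf (RESSTRICT), abstract half (helper32): **transport of the frozen STRICT
`IsStrictOrdinaryAt` to and between residual representations** (strict twin of helper69's
`GB/ResOrd/Plug`, plus the descent along a bijective field homomorphism).

* `isStrictOrdinaryAt_residual` : `ρ` strictly ordinary at `p` over a local ring `A` ⟹ its residual
  representation `ρ.residual` (over `A/𝔪`) is strictly ordinary at `p`;
* `isStrictOrdinaryAt_of_isEquiv` : invariance under `ResidualGaloisRep.IsEquiv`;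
* `isStrictOrdinaryAt_of_baseChangeAlong_bijective` : DESCENT — if `ρ ⊗_φ k'` is strictly ordinary
  and `φ : k → k'` is bijective, so is `ρ`;
* `isStrictOrdinaryAt_of_residual_isEquiv` : the composite — `ρ` strict over `A`,
  `ρ.residual ≅ ρbar ⊗_ι (A/𝔪)` with `ι : k → A/𝔪` bijective ⟹ `ρbar` strict.  This is the `hbar`
  ingredient of the SO deformation ring: `A = Tloc(M)`, `ρ = H_M.ρ` (strict by
  `GB/B10/Consumer.isStrictOrdinaryAt_of_not_resMod_level_res` at the UNTWISTED level `M`),
  `ι = ResidueField.map (algebraMap 𝒪 Tloc)`.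
-/
import Fermat.Agent.GB.ResOrd.Plug

set_option autoImplicit false
set_option linter.unusedSectionVars false
set_option linter.style.haveILetI false

namespace Fermat.Agent.GB.ResOrd.StrictPlug

open TensorProduct IsLocalRing Fermat.Agent.GP.Tan

/-- `G_ℚ`. -/
local notation "GQ" => AlgebraicClosure ℚ ≃ₐ[ℚ] AlgebraicClosure ℚ
local notation "Qb" => AlgebraicClosure ℚ

/-- the data of the frozen strict ordinarity at a place, for a family of endomorphisms. -/
def StrictAt {A : Type} [CommRing A] {V : Type} [AddCommGroup V] [Module A V]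
    (r : GQ → Module.End A V) (P : ValuationSubring Qb) (p : ℕ) : Prop :=
  ∃ L : Submodule A V,
    (∃ b : Module.Basis (Fin 2) A V, L = Submodule.span A {b 0}) ∧
    (∀ σ ∈ P.decompositionSubgroup ℚ, ∀ v ∈ L, r σ v ∈ L) ∧
    (∀ σ ∈ P.inertiaSubgroupIn ℚ, ∀ v : V, r σ v - v ∈ L) ∧
    (∀ σ ∈ P.decompositionSubgroup ℚ, ∃ x z : A,
      (∀ w ∈ L, r σ w = x • w) ∧ (∀ v : V, r σ v - z • v ∈ L) ∧
      ∀ (n a : ℕ), (∀ μ : Qb, μ ^ p ^ n = 1 → σ μ = μ ^ a) →
        x - (a : A) * z ∈ Ideal.span {((p ^ n : ℕ) : A)})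

theorem isStrictOrdinaryAt_iff_strictAt {A : Type} [CommRing A] [IsLocalRing A]
    (ρ : GaloisRepAdic A) (p : ℕ) :
    ρ.IsStrictOrdinaryAt p ↔ (p : A) ∈ maximalIdeal A ∧
      ∀ P : ValuationSubring Qb, P.LiesOverPrime p → StrictAt (fun σ => ρ.ρ σ) P p :=
  Iff.rfl

/-! ### (a) the residual representation of a strictly ordinary representation -/

/-- **(a)** strict ordinarity passes to the residual representation. -/
theorem isStrictOrdinaryAt_residual {A : Type} [CommRing A] [IsLocalRing A]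
    {ρ : GaloisRepAdic A} {p : ℕ} (h : ρ.IsStrictOrdinaryAt p) :
    (GaloisRepAdic.ofResidualGaloisRep ρ.residual).IsStrictOrdinaryAt p := by
  refine ⟨?_, fun P hP => ?_⟩
  · have h1 : (p : ResidueField A) = 0 := by
      rw [← map_natCast (residue A)]
      exact (residue_eq_zero_iff _).mpr h.1
    rw [h1]
    exact Submodule.zero_mem _
  · exact baseChangeAlong_strictOrdinary_core (B := ResidueField A) (fun σ => ρ.ρ σ)
      (P.decompositionSubgroup ℚ : Set GQ) (P.inertiaSubgroupIn ℚ : Set GQ)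
      (fun σ n a => ∀ μ : Qb, μ ^ p ^ n = 1 → σ μ = μ ^ a) p (h.2 P hP)

/-! ### (b) invariance under isomorphism -/

/-- **(b)** the frozen `IsStrictOrdinaryAt` is invariant under isomorphism of residual
representations. -/
theorem isStrictOrdinaryAt_of_isEquiv {k : Type} [Field k] {ρ₁ ρ₂ : ResidualGaloisRep k}
    (he : ρ₁.IsEquiv ρ₂) {p : ℕ}
    (h : (GaloisRepAdic.ofResidualGaloisRep ρ₁).IsStrictOrdinaryAt p) :
    (GaloisRepAdic.ofResidualGaloisRep ρ₂).IsStrictOrdinaryAt p := by
  obtain ⟨e⟩ := he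
  refine ⟨h.1, fun P hP => ?_⟩
  have h' : StrictAt (fun σ => ρ₁.ρ σ) P p := h.2 P hP
  obtain ⟨L, ⟨b, hb⟩, hD', hI', hS'⟩ := h'
  change StrictAt (fun σ => ρ₂.ρ σ) P p
  refine ⟨L.map (e.toLinearEquiv : ρ₁.V →ₗ[k] ρ₂.V), ⟨b.map e.toLinearEquiv, ?_⟩, ?_, ?_, ?_⟩
  · rw [hb, Submodule.map_span, Set.image_singleton, Module.Basis.map_apply]
    rfl
  · rintro σ hσ _ ⟨w, hw, rfl⟩
    refine ⟨ρ₁.ρ σ w, hD' σ hσ w hw, ?_⟩
    exact e.map_apply σ w
  · intro σ hσ v
    obtain ⟨w, rfl⟩ := e.toLinearEquiv.surjective v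
    refine ⟨ρ₁.ρ σ w - w, hI' σ hσ w, ?_⟩
    rw [map_sub]
    congr 1
    exact e.map_apply σ w
  · intro σ hσ
    obtain ⟨x, z, hx, hz, hxz⟩ := hS' σ hσ
    refine ⟨x, z, ?_, ?_, hxz⟩
    · rintro _ ⟨w, hw, rfl⟩
      show ρ₂.ρ σ (e.toLinearEquiv w) = x • e.toLinearEquiv w
      rw [← e.map_apply σ w, hx w hw, map_smul]
    · intro v
      obtain ⟨w, rfl⟩ := e.toLinearEquiv.surjective v
      refine ⟨ρ₁.ρ σ w - z • w, hz w, ?_⟩
      show e.toLinearEquiv (ρ₁.ρ σ w - z • w) = ρ₂.ρ σ (e.toLinearEquiv w) - z • e.toLinearEquiv w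
      rw [map_sub, map_smul, e.map_apply σ w]

/-! ### (c) descent along a bijective field homomorphism -/

section Descent

variable {k k' : Type} [Field k] [Field k'] [Algebra k k'] {V : Type} [AddCommGroup V]
  [Module k V]

/-- `v ↦ 1 ⊗ v`, as a `k`-linear equivalence when `k → k'` is bijective. -/
noncomputable def oneTmulEquiv (hbij : Function.Bijective (algebraMap k k')) :
    V ≃ₗ[k] (k' ⊗[k] V) :=
  LinearEquiv.ofBijective (TensorProduct.mk k k' V 1) (by
    constructor
    · -- injectivity: compose with the inverse of `algebraMap` tensored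
      let f : k' →ₗ[k] k :=
        { toFun := fun c => (RingEquiv.ofBijective (algebraMap k k') hbij).symm c
          map_add' := fun x y => map_add _ x y
          map_smul' := fun c x => by
            rw [RingHom.id_apply, Algebra.smul_def, map_mul, smul_eq_mul]
            congr 1
            exact (RingEquiv.ofBijective (algebraMap k k') hbij).symm_apply_apply c }
      have hf1 : f 1 = 1 := map_one (RingEquiv.ofBijective (algebraMap k k') hbij).symm
      intro v w hvw
      have h1 := congrArg (fun x => TensorProduct.lid k V (f.rTensor V x)) hvw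
      simpa [TensorProduct.mk_apply, LinearMap.rTensor_tmul, hf1] using h1
    · exact TensorProduct.mk_surjective k V k' hbij.2)

theorem oneTmulEquiv_apply (hbij : Function.Bijective (algebraMap k k')) (v : V) :
    oneTmulEquiv (V := V) hbij v = (1 : k') ⊗ₜ[k] v := rfl

end Descent

/-- **(c)** descent of strict ordinarity along a bijective field homomorphism. -/
theorem isStrictOrdinaryAt_of_baseChange_bijective {k : Type} [Field k]
    (ρ : ResidualGaloisRep k) (k' : Type) [Field k'] [Algebra k k']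
    (hbij : Function.Bijective (algebraMap k k')) {p : ℕ}
    (h : (GaloisRepAdic.ofResidualGaloisRep (ρ.baseChange k')).IsStrictOrdinaryAt p) :
    (GaloisRepAdic.ofResidualGaloisRep ρ).IsStrictOrdinaryAt p := by
  classical
  let φe : k ≃+* k' := RingEquiv.ofBijective (algebraMap k k') hbij
  have hφe : ∀ c : k, φe c = algebraMap k k' c := fun c => rfl
  have hinv : ∀ c' : k', algebraMap k k' (φe.symm c') = c' := fun c' => φe.apply_symm_apply c'
  let j : ρ.V ≃ₗ[k] (k' ⊗[k] ρ.V) := oneTmulEquiv hbij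
  have hj : ∀ (σ : GQ) (v : ρ.V), j (ρ.ρ σ v) = (ρ.ρ σ).baseChange k' (j v) := by
    intro σ v
    rw [oneTmulEquiv_apply, oneTmulEquiv_apply, LinearMap.baseChange_tmul]
  -- scalars: `c' • x = φ⁻¹ c' • x` on `k' ⊗ V`
  have hsm : ∀ (c' : k') (x : k' ⊗[k] ρ.V), c' • x = φe.symm c' • x := by
    intro c' x
    rw [← algebraMap_smul k' (φe.symm c') x, hinv]
  refine ⟨?_, fun P hP => ?_⟩
  · -- `p = 0` in `k`
    have h1 : (p : k') ∈ maximalIdeal k' := h.1
    have h2 : (p : k') = 0 := by
      by_contra hne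
      exact (mem_maximalIdeal _).mp h1 (isUnit_iff_ne_zero.mpr hne)
    have h3 : (p : k) = 0 := by
      apply hbij.1
      rw [map_natCast, h2, map_zero]
    rw [h3]
    exact Submodule.zero_mem _
  have h' : StrictAt (fun σ => (ρ.baseChange k').ρ σ) P p := h.2 P hP
  obtain ⟨L', ⟨b', hb'⟩, hD', hI', hS'⟩ := h'
  change StrictAt (fun σ => ρ.ρ σ) P p
  -- the `k`-basis of `V`
  let bk : Module.Basis (Fin 2) k (k' ⊗[k] ρ.V) :=
    b'.mapCoeffs φe.symm (fun c' x => (hsm c' x).symm)
  let b : Module.Basis (Fin 2) k ρ.V := bk.map j.symm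
  have hb0 : j (b 0) = b' 0 := by
    show j (j.symm (bk 0)) = b' 0
    rw [LinearEquiv.apply_symm_apply]
    exact Module.Basis.mapCoeffs_apply _ _ _ 0
  -- membership in `L'` through `j`
  have hmemL : ∀ v : ρ.V, v ∈ Submodule.span k {b 0} ↔ j v ∈ L' := by
    intro v
    rw [hb', Submodule.mem_span_singleton, Submodule.mem_span_singleton]
    constructor
    · rintro ⟨c, rfl⟩
      refine ⟨algebraMap k k' c, ?_⟩
      rw [map_smul, hb0, algebraMap_smul]
    · rintro ⟨c', hc'⟩
      refine ⟨φe.symm c', j.injective ?_⟩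
      rw [map_smul, hb0, ← hc', hsm c']
  refine ⟨Submodule.span k {b 0}, ⟨b, rfl⟩, ?_, ?_, ?_⟩
  · intro σ hσ v hv
    rw [hmemL, hj]
    exact hD' σ hσ _ ((hmemL v).mp hv)
  · intro σ hσ v
    rw [hmemL, map_sub, hj]
    exact hI' σ hσ (j v)
  · intro σ hσ
    obtain ⟨x, z, hx, hz, hxz⟩ := hS' σ hσ
    refine ⟨φe.symm x, φe.symm z, ?_, ?_, ?_⟩
    · intro w hw
      apply j.injective
      rw [hj, map_smul, ← hsm]
      exact hx (j w) ((hmemL w).mp hw)
    · intro v
      rw [hmemL, map_sub, hj, map_smul, ← hsm]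
      exact hz (j v)
    · intro n a ha
      have h1 := hxz n a ha
      rw [Ideal.mem_span_singleton] at h1 ⊢
      obtain ⟨c', hc'⟩ := h1
      refine ⟨φe.symm c', ?_⟩
      apply hbij.1
      rw [map_sub, map_mul, map_mul, map_natCast, map_natCast, hinv, hinv, hinv]
      exact hc'

/-- **(c)**, `baseChangeAlong` form. -/
theorem isStrictOrdinaryAt_of_baseChangeAlong_bijective {k : Type} [Field k]
    (ρ : ResidualGaloisRep k) {k' : Type} [Field k'] (φ : k →+* k')
    (hφ : Function.Bijective φ) {p : ℕ}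
    (h : (GaloisRepAdic.ofResidualGaloisRep (ρ.baseChangeAlong φ)).IsStrictOrdinaryAt p) :
    (GaloisRepAdic.ofResidualGaloisRep ρ).IsStrictOrdinaryAt p := by
  let _ : Algebra k k' := φ.toAlgebra
  exact isStrictOrdinaryAt_of_baseChange_bijective ρ k' hφ h

/-! ### the composite -/

/-- **the `hbar` ingredient**: a strictly ordinary `ρ` over a local ring `A` whose residual
representation is `ρbar ⊗_ι (A/𝔪)` with `ι` bijective forces `ρbar` to be strictly ordinary. -/
theorem isStrictOrdinaryAt_of_residual_isEquiv {A : Type} [CommRing A] [IsLocalRing A]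
    {ρ : GaloisRepAdic A} {p : ℕ} (h : ρ.IsStrictOrdinaryAt p) {k : Type} [Field k]
    (ρbar : ResidualGaloisRep k) (ι : k →+* ResidueField A) (hι : Function.Bijective ι)
    (he : ρ.residual.IsEquiv (ρbar.baseChangeAlong ι)) :
    (GaloisRepAdic.ofResidualGaloisRep ρbar).IsStrictOrdinaryAt p :=
  isStrictOrdinaryAt_of_baseChangeAlong_bijective ρbar ι hι
    (isStrictOrdinaryAt_of_isEquiv he (isStrictOrdinaryAt_residual h))

end Fermat.Agent.GB.ResOrd.StrictPlug
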